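import Fermat.Agent.S48.H882.GenField

/-!
# Tower A1 / DICT1, piece MERO, GENERIC in `(Γ, F₀)` (helper882)

Generic port of the landed `S29/H882/{MeroMain,MeroPrim}.lean` from `(Γ₀(N), F₀(N))` to ANY
subgroup `Γ` of finite index and ANY field `F₀ = ℚ(S) ⊆ ℚ((q))` generated by realised series
(`GenData Γ F₀ S`).

**Main result** `meroG_of_card_le_finrank`:
if `[SL(2,ℤ) : Γ] ≤ [ℚ̄·F₀ : ℚ̄(j)]` (the lower bound of the degree, e.g. helper332's
`S48.H332.GenData.finrank_eq` for `Γ ∋ -1`), then the `q`-expansion at `i∞` of EVERY good function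
for `Γ` (holomorphic, `Γ`-invariant, all translates of at most exponential growth) lies in `ℂ·F₀`.

`of_pm` versions: a subgroup `Γ` not containing `-1` (e.g. `Γ₁(M)`, `M ≥ 3`) may be replaced by
any `Γ'` with `Γ' ⊆ Γ ∪ -Γ` (e.g. `Γ' = ±Γ₁(M)`), since `-1` acts trivially on `ℍ`.

Proof: the field `MCG Γ` generated by the `q`-expansions of good functions has degree
`≤ [SL(2,ℤ) : Γ]` over `ℂ(j)` (conjugate product, `GoodG.lean`) and contains `ℂ·F₀` (GEN); a
primitive element `θ` of `ℚ̄·F₀ / ℚ̄(j)` keeps its degree over `ℂ(j)` (descent of relations), so it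
generates `MCG Γ` over `ℂ(j)`.
-/

set_option autoImplicit false
set_option linter.style.haveILetI false
set_option linter.unusedSectionVars false

noncomputable section

open UpperHalfPlane ModularGroup CongruenceSubgroup Polynomial ModularCurve IntermediateField
open scoped MatrixGroups Manifold Modular Real

namespace Fermat.Agent.S48.H882

open Fermat.Agent.S24 Fermat.Agent.S24.H648 Fermat.Agent.S24.H708 Fermat.Agent.S24.Deg457
open Fermat.Agent.S29.H882 (exists_relation_of_coeffMap_ne_zero exists_clear_denominators)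

/-! ### `±Γ` -/

section Pm

variable {Γ Γ' : Subgroup SL(2, ℤ)}

/-- Good functions for `Γ` are good for every `Γ' ⊆ Γ ∪ -Γ`. -/
theorem GoodG.of_pm (hpm : ∀ g ∈ Γ', g ∈ Γ ∨ -g ∈ Γ) {f : ℍ → ℂ} (hf : GoodG Γ f) :
    GoodG Γ' f := by
  refine ⟨hf.1, fun g hg τ => ?_, hf.2.2⟩
  rcases hpm g hg with h | h
  · exact hf.2.1 g h τ
  · have := hf.2.1 (-g) h τ
    rwa [ModularGroup.SL_neg_smul] at this

theorem goodQG_le_of_pm (hpm : ∀ g ∈ Γ', g ∈ Γ ∨ -g ∈ Γ) : goodQG Γ ≤ goodQG Γ' := by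
  rintro b ⟨f, hf, hq⟩
  exact ⟨f, hf.of_pm hpm, hq⟩

theorem GenData.of_pm {F₀ : IntermediateField ℚ (LaurentSeries ℚ)} {S : Set (LaurentSeries ℚ)}
    (h : GenData Γ F₀ S) (hpm : ∀ g ∈ Γ', g ∈ Γ ∨ -g ∈ Γ) : GenData Γ' F₀ S :=
  ⟨h.subset, h.le_adjoin, fun s hs => goodQG_le_of_pm hpm (h.real s hs)⟩

end Pm

/-! ### Base change of the function field -/

section BaseChange

variable {K L : Type*} [Field K] [Algebra ℚ K] [Field L] [Algebra ℚ L]

/-- `coeffMap ι` maps `K·F₀` into `L·F₀`. -/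
theorem coeffMap_mem_laurentBaseChange' (ι : K →+* L)
    (F₀ : IntermediateField ℚ (LaurentSeries ℚ)) {x : LaurentSeries K}
    (hx : x ∈ laurentBaseChange K F₀) : coeffMap ι x ∈ laurentBaseChange L F₀ := by
  rw [mem_laurentBaseChange_iff] at hx
  induction hx using Subfield.closure_induction with
  | mem y hy =>
      rcases hy with ⟨a, rfl⟩ | ⟨z, hz, rfl⟩
      · rw [coeffMap_algebraMap']
        exact (laurentBaseChange L F₀).algebraMap_mem _
      · rw [coeffMap_coeffEmb']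
        exact coeffEmb_mem_laurentBaseChange L hz
  | one => simp
  | add x y _ _ hx hy => simpa using add_mem hx hy
  | neg x _ hx => simpa using neg_mem hx
  | inv x _ hx => simpa using inv_mem hx
  | mul x y _ _ hx hy => simpa using mul_mem hx hy

end BaseChange

/-! ### The field generated by the good functions -/

section MC

variable (Γ : Subgroup SL(2, ℤ))

/-- The field generated by the `q`-expansions of good functions for `Γ`. -/
def MCG : IntermediateField ℂ (LaurentSeries ℂ) :=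
  IntermediateField.adjoin ℂ (goodQG Γ : Set (LaurentSeries ℂ))

theorem goodQG_le_MCG {b : LaurentSeries ℂ} (hb : b ∈ goodQG Γ) : b ∈ MCG Γ :=
  IntermediateField.subset_adjoin ℂ _ hb

/-- `j` as an element of `MCG Γ`. -/
def jMG : MCG Γ := ⟨JK ℂ, goodQG_le_MCG Γ (JK_mem_goodQG Γ)⟩

theorem aeval_jMG_ne_zero {t : ℂ[X]} (ht : t ≠ 0) :
    aeval (AdjoinSimple.gen ℂ (jMG Γ)) t ≠ 0 := by
  intro h0
  apply aeval_JK_ne_zero ℂ ht
  have h1 := congrArg (algebraMap ↥(IntermediateField.adjoin ℂ {jMG Γ}) (MCG Γ)) h0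
  rw [← aeval_algebraMap_apply, map_zero, AdjoinSimple.algebraMap_gen] at h1
  have h2 := congrArg (algebraMap (MCG Γ) (LaurentSeries ℂ)) h1
  rw [← aeval_algebraMap_apply, map_zero] at h2
  exact h2

theorem algebraMap_comp_aeval_jMG :
    (algebraMap (MCG Γ) (LaurentSeries ℂ)).comp
      ((aeval (jMG Γ) : ℂ[X] →ₐ[ℂ] MCG Γ).toRingHom) = evJ (JK ℂ) := by
  refine Polynomial.ringHom_ext ?_ ?_
  · intro c
    simp [evJ, ← IsScalarTower.algebraMap_apply]
  · simp [evJ]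
    rfl

/-- **Degree bound**: `[MCG Γ : ℂ(j)] ≤ [SL(2,ℤ) : Γ]`. -/
theorem finiteDimensional_and_finrank_le_MCG [Finite (SL(2, ℤ) ⧸ Γ)] :
    FiniteDimensional ↥(IntermediateField.adjoin ℂ {jMG Γ}) (MCG Γ) ∧
      Module.finrank ↥(IntermediateField.adjoin ℂ {jMG Γ}) (MCG Γ)
        ≤ Nat.card (SL(2, ℤ) ⧸ Γ) := by
  refine finiteDimensional_and_finrank_le_of_forall_natDegree_minpoly_le _ fun x => ?_
  obtain ⟨Q, hQ0, hQn, hQ⟩ := algDeg_of_mem_adjoin_goodQG (Γ := Γ) x.2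
  have hinc : Function.Injective (algebraMap (MCG Γ) (LaurentSeries ℂ)) :=
    (algebraMap (MCG Γ) (LaurentSeries ℂ)).injective
  refine isIntegral_and_natDegree_le_of_relation (K := ℂ)
    (AdjoinSimple.gen ℂ (jMG Γ)) (fun t ht => aeval_jMG_ne_zero Γ ht) x Q hQ0 _ hQn ?_
  apply hinc
  rw [map_zero, Polynomial.hom_eval₂, AdjoinSimple.algebraMap_gen, algebraMap_comp_aeval_jMG]
  exact hQ

end MC

/-! ### The primitive element -/

section Prim

variable {Γ : Subgroup SL(2, ℤ)} [Finite (SL(2, ℤ) ⧸ Γ)]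
  {F₀ : IntermediateField ℚ (LaurentSeries ℚ)} {S : Set (LaurentSeries ℚ)}
  (hgen : GenData Γ F₀ S)
  (jF : ↥(laurentBaseChange Kbar F₀)) (hjF : (jF : LaurentSeries Kbar) = JK Kbar)

include hgen in
theorem GenData.le_MCG : laurentBaseChange ℂ F₀ ≤ MCG Γ :=
  hgen.laurentBaseChange_le_adjoin_goodQG

/-- The base change of an element of `ℚ̄·F₀`, as a Laurent series over `ℂ`. -/
def thetaL (θ : ↥(laurentBaseChange Kbar F₀)) : LaurentSeries ℂ :=
  coeffMap iotaC (θ : LaurentSeries Kbar)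

theorem thetaL_mem (θ : ↥(laurentBaseChange Kbar F₀)) : thetaL θ ∈ laurentBaseChange ℂ F₀ :=
  coeffMap_mem_laurentBaseChange' iotaC _ θ.2

/-- The same element in `MCG Γ`. -/
def thetaM (θ : ↥(laurentBaseChange Kbar F₀)) : MCG Γ := ⟨thetaL θ, hgen.le_MCG (thetaL_mem θ)⟩

include hjF in
theorem aeval_jF_ne_zero' {t : Kbar[X]} (ht : t ≠ 0) :
    aeval (AdjoinSimple.gen Kbar jF) t ≠ 0 := by
  intro h0
  apply aeval_JK_ne_zero Kbar ht
  have h1 := congrArg (algebraMap ↥(IntermediateField.adjoin Kbar {jF})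
    ↥(laurentBaseChange Kbar F₀)) h0
  rw [← aeval_algebraMap_apply, map_zero, AdjoinSimple.algebraMap_gen] at h1
  have h2 := congrArg (algebraMap ↥(laurentBaseChange Kbar F₀) (LaurentSeries Kbar)) h1
  rw [← aeval_algebraMap_apply, map_zero] at h2
  rw [← hjF]
  exact h2

include hjF in
theorem algebraMap_comp_aeval_jF' :
    (algebraMap ↥(laurentBaseChange Kbar F₀) (LaurentSeries Kbar)).comp
      ((aeval jF : Kbar[X] →ₐ[Kbar] ↥(laurentBaseChange Kbar F₀)).toRingHom)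
      = evJ (JK Kbar) := by
  refine Polynomial.ringHom_ext ?_ ?_
  · intro c
    simp [evJ, ← IsScalarTower.algebraMap_apply]
  · simp [evJ]
    exact hjF

include hjF in
/-- The degree of `θ` over `ℚ̄(j)` is at most the degree of its base change over `ℂ(j)`. -/
theorem natDegree_minpoly_le_thetaM (θ : ↥(laurentBaseChange Kbar F₀)) :
    (minpoly ↥(IntermediateField.adjoin Kbar {jF}) θ).natDegree
      ≤ (minpoly ↥(IntermediateField.adjoin ℂ {jMG Γ}) (thetaM hgen θ)).natDegree := by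
  haveI := (finiteDimensional_and_finrank_le_MCG Γ).1
  have hint : IsIntegral ↥(IntermediateField.adjoin ℂ {jMG Γ}) (thetaM hgen θ) :=
    IsIntegral.of_finite _ _
  have hp0 : minpoly ↥(IntermediateField.adjoin ℂ {jMG Γ}) (thetaM hgen θ) ≠ 0 :=
    minpoly.ne_zero hint
  obtain ⟨t, Q, ht, hQ⟩ := exists_clear_denominators (K := ℂ) (jMG Γ)
    (minpoly ↥(IntermediateField.adjoin ℂ {jMG Γ}) (thetaM hgen θ))
  have hφinj : Function.Injective
      ((aeval (AdjoinSimple.gen ℂ (jMG Γ)) : ℂ[X] →ₐ[ℂ] ℂ⟮jMG Γ⟯).toRingHom) := by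
    rw [injective_iff_map_eq_zero]
    intro t ht0
    by_contra h
    exact aeval_jMG_ne_zero Γ h ht0
  have hQ0 : Q ≠ 0 := by
    intro h
    rw [h, Polynomial.map_zero] at hQ
    exact (mul_ne_zero (C_ne_zero.mpr ht) hp0) hQ.symm
  have hQd : Q.natDegree ≤
      (minpoly ↥(IntermediateField.adjoin ℂ {jMG Γ}) (thetaM hgen θ)).natDegree := by
    rw [← Polynomial.natDegree_map_eq_of_injective hφinj Q, hQ, natDegree_C_mul ht]
  have hroot : Q.eval₂ (evJ (JK ℂ)) (thetaL θ) = 0 := by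
    have h1 : aeval (thetaM hgen θ)
        (Q.map ((aeval (AdjoinSimple.gen ℂ (jMG Γ)) : ℂ[X] →ₐ[ℂ] ℂ⟮jMG Γ⟯).toRingHom)) = 0 := by
      rw [hQ, map_mul, minpoly.aeval, mul_zero]
    have h2 := congrArg (algebraMap (MCG Γ) (LaurentSeries ℂ)) h1
    rw [map_zero, aeval_def, eval₂_map, Polynomial.hom_eval₂] at h2
    have hcomp : (algebraMap (MCG Γ) (LaurentSeries ℂ)).comp
        ((algebraMap ↥(IntermediateField.adjoin ℂ {jMG Γ}) (MCG Γ)).comp
          ((aeval (AdjoinSimple.gen ℂ (jMG Γ)) : ℂ[X] →ₐ[ℂ] ℂ⟮jMG Γ⟯).toRingHom))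
        = evJ (JK ℂ) := by
      refine Polynomial.ringHom_ext ?_ ?_
      · intro c
        simp [evJ, ← IsScalarTower.algebraMap_apply]
      · simp [evJ]
        rfl
    rw [hcomp] at h2
    exact h2
  obtain ⟨Q', hQ'0, hQ'd, hQ'⟩ := exists_relation_of_coeffMap_ne_zero iotaC (JK Kbar)
    (θ : LaurentSeries Kbar) _ Q hQ0 hQd (by rw [coeffMap_JK]; exact hroot)
  have hinc : Function.Injective
      (algebraMap ↥(laurentBaseChange Kbar F₀) (LaurentSeries Kbar)) :=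
    (algebraMap ↥(laurentBaseChange Kbar F₀) (LaurentSeries Kbar)).injective
  have key := isIntegral_and_natDegree_le_of_relation (K := Kbar)
    (AdjoinSimple.gen Kbar jF) (fun t ht => aeval_jF_ne_zero' jF hjF ht) θ Q' hQ'0 _ hQ'd (by
      apply hinc
      rw [map_zero, Polynomial.hom_eval₂, AdjoinSimple.algebraMap_gen,
        algebraMap_comp_aeval_jF' jF hjF]
      exact hQ')
  exact key.2

include hgen in
theorem coe_mem_of_mem_adjoin_jMG (hj : jq ∈ F₀) (e : ↥(IntermediateField.adjoin ℂ {jMG Γ})) :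
    (((e : MCG Γ)) : LaurentSeries ℂ) ∈ laurentBaseChange ℂ F₀ := by
  have hJ : JK ℂ ∈ laurentBaseChange ℂ F₀ := coeffEmb_mem_laurentBaseChange ℂ hj
  obtain ⟨r, s, hrs⟩ := (IntermediateField.mem_adjoin_simple_iff ℂ (e : MCG Γ)).mp e.2
  have hr : ((aeval (jMG Γ) r : MCG Γ) : LaurentSeries ℂ) = aeval (JK ℂ) r := by
    have := (aeval_algebraMap_apply (LaurentSeries ℂ) (jMG Γ) r).symm
    exact this
  have hs : ((aeval (jMG Γ) s : MCG Γ) : LaurentSeries ℂ) = aeval (JK ℂ) s := by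
    have := (aeval_algebraMap_apply (LaurentSeries ℂ) (jMG Γ) s).symm
    exact this
  have hmem : ∀ t : ℂ[X], aeval (JK ℂ) t ∈ laurentBaseChange ℂ F₀ := by
    intro t
    have := (aeval_algebraMap_apply (LaurentSeries ℂ)
      (⟨JK ℂ, hJ⟩ : ↥(laurentBaseChange ℂ F₀)) t)
    have h2 : (algebraMap ↥(laurentBaseChange ℂ F₀) (LaurentSeries ℂ))
        (⟨JK ℂ, hJ⟩ : ↥(laurentBaseChange ℂ F₀)) = JK ℂ := rfl
    rw [h2] at this
    rw [this]
    exact (aeval (⟨JK ℂ, hJ⟩ : ↥(laurentBaseChange ℂ F₀)) t).2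
  rw [hrs]
  have : (((aeval (jMG Γ) r / aeval (jMG Γ) s : MCG Γ)) : LaurentSeries ℂ)
      = aeval (JK ℂ) r / aeval (JK ℂ) s := by
    rw [← hr, ← hs]
    rfl
  rw [this]
  exact div_mem (hmem r) (hmem s)

include hgen hjF in
/-- **`MCG Γ ≤ ℂ·F₀`** from the lower bound of the degree over `ℚ̄`. -/
theorem MCG_le_of_card_le_finrank (hj : jq ∈ F₀)
    [FiniteDimensional ↥(IntermediateField.adjoin Kbar {jF}) ↥(laurentBaseChange Kbar F₀)]
    (hdeg : Nat.card (SL(2, ℤ) ⧸ Γ)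
      ≤ Module.finrank ↥(IntermediateField.adjoin Kbar {jF}) ↥(laurentBaseChange Kbar F₀)) :
    MCG Γ ≤ laurentBaseChange ℂ F₀ := by
  obtain ⟨θ, hθ⟩ := Field.exists_primitive_element ↥(IntermediateField.adjoin Kbar {jF})
    ↥(laurentBaseChange Kbar F₀)
  have hθd := (Field.primitive_element_iff_minpoly_natDegree_eq _ θ).mp hθ
  haveI := (finiteDimensional_and_finrank_le_MCG Γ).1
  have htop : IntermediateField.adjoin ↥(IntermediateField.adjoin ℂ {jMG Γ})
      {thetaM hgen θ} = ⊤ := by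
    rw [Field.primitive_element_iff_minpoly_natDegree_eq]
    have h1 := natDegree_minpoly_le_thetaM hgen jF hjF θ
    have h2 := (finiteDimensional_and_finrank_le_MCG Γ).2
    have h3 : (minpoly ↥(IntermediateField.adjoin ℂ {jMG Γ}) (thetaM hgen θ)).natDegree ≤
        Module.finrank ↥(IntermediateField.adjoin ℂ {jMG Γ}) (MCG Γ) := minpoly.natDegree_le _
    omega
  intro y hy
  have hy' : (⟨y, hy⟩ : MCG Γ) ∈
      IntermediateField.adjoin ↥(IntermediateField.adjoin ℂ {jMG Γ}) {thetaM hgen θ} := by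
    rw [htop]; exact IntermediateField.mem_top
  have key : ∀ z : MCG Γ,
      z ∈ IntermediateField.adjoin ↥(IntermediateField.adjoin ℂ {jMG Γ}) {thetaM hgen θ} →
      (z : LaurentSeries ℂ) ∈ laurentBaseChange ℂ F₀ := by
    intro z hz
    refine IntermediateField.adjoin_induction ↥(IntermediateField.adjoin ℂ {jMG Γ})
      (p := fun (z : MCG Γ) _ => ((z : MCG Γ) : LaurentSeries ℂ) ∈ laurentBaseChange ℂ F₀)
      ?_ ?_ ?_ ?_ ?_ hz
    · intro x hx
      rw [Set.mem_singleton_iff] at hx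
      subst hx
      exact thetaL_mem θ
    · intro e
      exact coe_mem_of_mem_adjoin_jMG hgen hj e
    · intro x y _ _ hx hy
      exact add_mem hx hy
    · intro x _ hx
      exact inv_mem hx
    · intro x y _ _ hx hy
      exact mul_mem hx hy
  exact key ⟨y, hy⟩ hy'

end Prim

/-! ### MERO -/

/-- **MERO, generic**: if `[SL(2,ℤ) : Γ] ≤ [ℚ̄·F₀ : ℚ̄(j)]`, the `q`-expansion of every good
function for `Γ` lies in `ℂ·F₀`. -/
theorem mem_of_mem_goodQG_of_card_le_finrank {Γ : Subgroup SL(2, ℤ)} [Finite (SL(2, ℤ) ⧸ Γ)]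
    {F₀ : IntermediateField ℚ (LaurentSeries ℚ)} {S : Set (LaurentSeries ℚ)}
    (hgen : GenData Γ F₀ S) (hj : jq ∈ F₀)
    (jF : ↥(laurentBaseChange Kbar F₀)) (hjF : (jF : LaurentSeries Kbar) = JK Kbar)
    [FiniteDimensional ↥(IntermediateField.adjoin Kbar {jF}) ↥(laurentBaseChange Kbar F₀)]
    (hdeg : Nat.card (SL(2, ℤ) ⧸ Γ)
      ≤ Module.finrank ↥(IntermediateField.adjoin Kbar {jF}) ↥(laurentBaseChange Kbar F₀))
    {b : LaurentSeries ℂ} (hb : b ∈ goodQG Γ) : b ∈ laurentBaseChange ℂ F₀ :=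
  MCG_le_of_card_le_finrank hgen jF hjF hj hdeg (goodQG_le_MCG Γ hb)

/-- **MERO, generic, `±Γ` form**: `Γ'` is any subgroup of finite index with `Γ' ⊆ Γ ∪ -Γ` and
`[SL(2,ℤ) : Γ'] ≤ [ℚ̄·F₀ : ℚ̄(j)]`; `T ∈ Γ`. -/
theorem mem_of_goodG_of_pm {Γ Γ' : Subgroup SL(2, ℤ)} [Finite (SL(2, ℤ) ⧸ Γ')]
    (hpm : ∀ g ∈ Γ', g ∈ Γ ∨ -g ∈ Γ) (hT : ModularGroup.T ∈ Γ)
    {F₀ : IntermediateField ℚ (LaurentSeries ℚ)} {S : Set (LaurentSeries ℚ)}
    (hgen : GenData Γ F₀ S) (hj : jq ∈ F₀)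
    (jF : ↥(laurentBaseChange Kbar F₀)) (hjF : (jF : LaurentSeries Kbar) = JK Kbar)
    [FiniteDimensional ↥(IntermediateField.adjoin Kbar {jF}) ↥(laurentBaseChange Kbar F₀)]
    (hdeg : Nat.card (SL(2, ℤ) ⧸ Γ')
      ≤ Module.finrank ↥(IntermediateField.adjoin Kbar {jF}) ↥(laurentBaseChange Kbar F₀))
    {G : ℍ → ℂ} (hG : GoodG Γ G) : qexpFun 1 G ∈ laurentBaseChange ℂ F₀ :=
  mem_of_mem_goodQG_of_card_le_finrank (hgen.of_pm hpm) hj jF hjF hdeg
    ((goodQG_le_of_pm hpm) (qexpFun_mem_goodQG hT hG))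

/-- **MERO, generic**, in the `Prop` form `MeroG Γ F₀` used by piece K3. -/
theorem meroG_of_pm {Γ Γ' : Subgroup SL(2, ℤ)} [Finite (SL(2, ℤ) ⧸ Γ')]
    (hpm : ∀ g ∈ Γ', g ∈ Γ ∨ -g ∈ Γ) (hT : ModularGroup.T ∈ Γ)
    {F₀ : IntermediateField ℚ (LaurentSeries ℚ)} {S : Set (LaurentSeries ℚ)}
    (hgen : GenData Γ F₀ S) (hj : jq ∈ F₀)
    (jF : ↥(laurentBaseChange Kbar F₀)) (hjF : (jF : LaurentSeries Kbar) = JK Kbar)
    [FiniteDimensional ↥(IntermediateField.adjoin Kbar {jF}) ↥(laurentBaseChange Kbar F₀)]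
    (hdeg : Nat.card (SL(2, ℤ) ⧸ Γ')
      ≤ Module.finrank ↥(IntermediateField.adjoin Kbar {jF}) ↥(laurentBaseChange Kbar F₀)) :
    MeroG Γ F₀ :=
  fun _ hG => mem_of_goodG_of_pm hpm hT hgen hj jF hjF hdeg hG

/-- **MERO, generic**, for `Γ ∋ -1` (take `Γ' = Γ`). -/
theorem meroG_of_card_le_finrank {Γ : Subgroup SL(2, ℤ)} [Finite (SL(2, ℤ) ⧸ Γ)]
    (hT : ModularGroup.T ∈ Γ)
    {F₀ : IntermediateField ℚ (LaurentSeries ℚ)} {S : Set (LaurentSeries ℚ)}
    (hgen : GenData Γ F₀ S) (hj : jq ∈ F₀)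
    (jF : ↥(laurentBaseChange Kbar F₀)) (hjF : (jF : LaurentSeries Kbar) = JK Kbar)
    [FiniteDimensional ↥(IntermediateField.adjoin Kbar {jF}) ↥(laurentBaseChange Kbar F₀)]
    (hdeg : Nat.card (SL(2, ℤ) ⧸ Γ)
      ≤ Module.finrank ↥(IntermediateField.adjoin Kbar {jF}) ↥(laurentBaseChange Kbar F₀)) :
    MeroG Γ F₀ :=
  meroG_of_pm (fun _ hg => Or.inl hg) hT hgen hj jF hjF hdeg

end Fermat.Agent.S48.H882
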