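import Fermat.Agent.S48.H882.K3Fin
import Fermat.Agent.S48.H882.MeroG
import Fermat.Agent.S48.Kum.Top
import Fermat.Agent.S48.H332.F1Inst
import Fermat.Agent.S29.H882.Inter

/-!
# Tower A1 / A1-KUM — leaf `k3` for `(Γ₁(M), F1Bar M)` from DFROM + DTO (helper882)

* GENERIC adapter `kum_pieceK3_of` : `H882.pieceK3G` in the frozen shape `Kum.PieceK3 Γ F p`
  (characters `c : Γ → ZMod p`, `ζ_p ^ c(γ)`), from GEN, MERO, DFROM, DTO.
* INSTANCE `(Γ₁(M), F1 M)`: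
  - `genData_f1 M  : GenData (Gamma1 M) (F1 M) (f1Gens M)`   (avatars `j(dτ)`, `H76.pFun M a`);
  - `meroG_f1 M    : MeroG (Gamma1 M) (F1 M)`                (from `H332.f1_finrank_eq`);
  - `dictInter_f1 M : Kum.DictInter (Gamma1 M) (F1Bar M)`    (= leaf `inter`, UNCONDITIONAL);
  - `dictMero_f1 M  : Kum.DictMero (Gamma1 M) (F1Bar M)`     (= leaf `mero`, UNCONDITIONAL);
  - `pieceK3_f1_of` : DFROM + DTO for `(Γ₁(M), F1 M)` ⟹ `Kum.PieceK3 (Gamma1 M) (F1Bar M) ℓ`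
    (= leaf `k3`; the two inputs are owned by helper282).
-/

set_option autoImplicit false
set_option linter.style.haveILetI false
set_option linter.unusedSectionVars false

noncomputable section

open UpperHalfPlane ModularGroup CongruenceSubgroup Polynomial ModularCurve AlgebraicCurve
open scoped MatrixGroups Manifold Modular Real

namespace Fermat.Agent.S48.H882

open Fermat.Agent.S24 Fermat.Agent.S24.H648 Fermat.Agent.S24.H708 Fermat.Agent.S24.Deg457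
open Fermat.Agent.S29 Fermat.Agent.S48.F1

/-! ### The generic adapter to the frozen `Kum` shapes -/

section Adapter

variable {Γ : Subgroup SL(2, ℤ)} {p : ℕ} [NeZero p]

theorem zetaP_pow_self_eq (p : ℕ) [NeZero p] : M4b.zetaP p ^ p = 1 := by
  unfold M4b.zetaP
  rw [← Complex.exp_nat_mul]
  have hp : (p : ℂ) ≠ 0 := Nat.cast_ne_zero.mpr (NeZero.ne p)
  rw [mul_div_cancel₀ _ hp]
  exact Complex.exp_two_pi_mul_I

theorem zetaP_ne_zero' (p : ℕ) : M4b.zetaP p ≠ 0 := by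
  unfold M4b.zetaP
  exact Complex.exp_ne_zero _

theorem zetaP_pow_val_add (a b : ZMod p) :
    M4b.zetaP p ^ (a + b).val = M4b.zetaP p ^ a.val * M4b.zetaP p ^ b.val := by
  rw [ZMod.val_add, ← pow_eq_pow_mod _ (zetaP_pow_self_eq p), pow_add]

/-- The multiplicative character `γ ↦ ζ_p ^ c(γ)` of an additive character `c`. -/
def charOf (c : Γ → ZMod p) (hc : ∀ γ γ' : Γ, c (γ * γ') = c γ + c γ') : Γ →* ℂˣ :=
  MonoidHom.toHomUnits
    { toFun := fun γ => M4b.zetaP p ^ (c γ).val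
      map_one' := by
        have h1 : c 1 = 0 := by
          have h := hc 1 1
          rw [mul_one] at h
          exact left_eq_add.mp h
        rw [h1, ZMod.val_zero, pow_zero]
      map_mul' := fun γ γ' => by rw [hc, zetaP_pow_val_add] }

theorem charOf_apply (c : Γ → ZMod p) (hc : ∀ γ γ' : Γ, c (γ * γ') = c γ + c γ') (γ : Γ) :
    ((charOf c hc γ : ℂˣ) : ℂ) = M4b.zetaP p ^ (c γ).val := rfl

theorem goodG_iff_isGood {G : ℍ → ℂ} : GoodG Γ G ↔ Kum.IsGood Γ G := Iff.rfl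

theorem isTwistedG_of_kum {c : Γ → ZMod p} (hc : ∀ γ γ' : Γ, c (γ * γ') = c γ + c γ')
    {U : ℍ → ℂ} (hU : Kum.IsTwisted Γ p c U) : IsTwistedG Γ p (charOf c hc) U :=
  ⟨hU.mdiff, hU.ne_zero, fun γ τ => by rw [charOf_apply]; exact hU.hasChar γ τ, hU.pow_good⟩

theorem kum_isTwisted_of {c : Γ → ZMod p} (hc : ∀ γ γ' : Γ, c (γ * γ') = c γ + c γ')
    {U : ℍ → ℂ} (hU : IsTwistedG Γ p (charOf c hc) U) : Kum.IsTwisted Γ p c U :=
  ⟨hU.mdiff, hU.ne_zero, fun γ τ => by rw [← charOf_apply c hc]; exact hU.hasChar γ τ,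
    hU.pow_good⟩

omit [NeZero p] in
theorem trace_T_eq_two : (ModularGroup.T : SL(2, ℤ)).1.trace = 2 := by
  simp [ModularGroup.T]

/-- **PIECE K3 in the frozen shape `Kum.PieceK3`, GENERIC in `(Γ, F₀)`**, from GEN, MERO, DFROM
and DTO (for all twisted functions of parabolic characters). -/
theorem kum_pieceK3_of (Γ : Subgroup SL(2, ℤ)) [Finite (SL(2, ℤ) ⧸ Γ)]
    (hT : ModularGroup.T ∈ Γ) (F₀ : IntermediateField ℚ (LaurentSeries ℚ)) (hj : jq ∈ F₀)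
    {S : Set (LaurentSeries ℚ)} (hgen : GenData Γ F₀ S) (hmero : MeroG Γ F₀)
    (p : ℕ) [NeZero p] (hd : DFromG Γ F₀ p)
    (hdto : ∀ {c : Γ → ZMod p}, Kum.IsParHom Γ c → ∀ {U : ℍ → ℂ}, Kum.IsTwisted Γ p c U →
      DToG F₀ p U) :
    Kum.PieceK3 Γ (laurentBaseChange Kbar F₀) p := by
  intro c hc U hU
  have hχT : charOf c hc.map_mul ⟨ModularGroup.T, hT⟩ = 1 := by
    apply Units.ext
    rw [charOf_apply, Units.val_one, hc.parabolic ⟨ModularGroup.T, hT⟩ (Or.inl trace_T_eq_two),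
      ZMod.val_zero, pow_zero]
  obtain ⟨U', u, hU', hu⟩ := pieceK3G Γ hT F₀ hj hgen hmero p hd hχT
    (isTwistedG_of_kum hc.map_mul hU) (hdto hc hU)
  exact ⟨U', u, kum_isTwisted_of hc.map_mul hU', hu⟩

/-- **DICT-INTER, generic**: from MERO and the landed `S29.H882.mem_laurentBaseChange_of_coeffMap_mem`. -/
theorem kum_dictInter_of {Γ : Subgroup SL(2, ℤ)} {F₀ : IntermediateField ℚ (LaurentSeries ℚ)}
    (hmero : MeroG Γ F₀) : Kum.DictInter Γ (laurentBaseChange Kbar F₀) := by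
  intro G s hG hq
  have h := hmero G hG
  rw [hq] at h
  exact Fermat.Agent.S29.H882.mem_laurentBaseChange_of_coeffMap_mem iotaC F₀ h

/-- **DICT-MERO, generic**: from GEN. -/
theorem kum_dictMero_of {Γ : Subgroup SL(2, ℤ)} {F₀ : IntermediateField ℚ (LaurentSeries ℚ)}
    {S : Set (LaurentSeries ℚ)} (hgen : GenData Γ F₀ S) :
    Kum.DictMero Γ (laurentBaseChange Kbar F₀) := by
  intro u
  obtain ⟨r, hr, s, hs, hs0, hrs⟩ := exists_div_AKG Kbar hgen.le_adjoin u.2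
  obtain ⟨G₁, hG₁, hq₁⟩ := hgen.coeffMap_mem_goodQG iotaC hr
  obtain ⟨G₂, hG₂, hq₂⟩ := hgen.coeffMap_mem_goodQG iotaC hs
  refine ⟨⟨r, AKG_le_laurentBaseChange Kbar hgen.subset hr⟩,
    ⟨s, AKG_le_laurentBaseChange Kbar hgen.subset hs⟩, G₁, G₂, ?_, ?_,
    ⟨hG₁, hq₁.qexpFun_eq⟩, ⟨hG₂, hq₂.qexpFun_eq⟩⟩
  · exact fun h => hs0 (congrArg Subtype.val h)
  · apply Subtype.ext
    show (u : LaurentSeries Kbar) * s = r
    rw [hrs, div_mul_cancel₀ _ hs0]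

end Adapter

/-! ### The instance `(Γ₁(M), F1 M)` -/

section F1

open Fermat.Agent.S48.H332 Fermat.Agent.S48.H76

variable (M : ℕ) [NeZero M]

theorem finite_quot_Gamma1 : Finite (SL(2, ℤ) ⧸ Gamma1 M) :=
  Subgroup.finite_quotient_of_finiteIndex

theorem T_mem_Gamma1' : ModularGroup.T ∈ Gamma1 M := by
  rw [Gamma1_mem]
  simp [ModularGroup.T]

theorem coeffEmb_divGen_eq (a : ZMod M) : coeffEmb ℂ (divGen M a) = divGenC ℂ M a := by
  rw [coeffEmb, ← divGenC_rat, coeffMap_divGenC]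

/-- **GEN** for `(Γ₁(M), F1 M)`. -/
theorem genData_f1 : GenData (Gamma1 M) (F1 M) (f1Gens M) where
  subset := fun s hs => IntermediateField.subset_adjoin ℚ _ hs
  le_adjoin := le_refl _
  real := by
    rintro s (hs | hs)
    · -- `j(q^d)`: good for `Γ₀(M)`
      have h1 : coeffEmb ℂ s ∈ AK ℂ M := Algebra.subset_adjoin ⟨s, hs, rfl⟩
      obtain ⟨f, hf, hq⟩ := Fermat.Agent.S29.H882.AK_le_goodQ M h1
      exact ⟨f, GoodG.mono (Γ' := Gamma0 M) hf (Gamma1_in_Gamma0 M), hq⟩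
    · -- `P_a`: the avatar `pFun M a`
      obtain ⟨a, ha, rfl⟩ := hs
      refine ⟨pFun M a, isGoodFor_of_mem_holN (pFun_mem_holN M a)
        (fun γ hγ τ => pFun_smul_Gamma1 M a γ hγ τ), ?_⟩
      rw [coeffEmb_divGen_eq]
      exact Fermat.Agent.S29.H332.hasQExp_of_infExp (mdiff_pFun M a) (infExp_pFun M ha)

theorem pm_Gamma1 : ∀ g ∈ pmGamma1 M, g ∈ Gamma1 M ∨ -g ∈ Gamma1 M := by
  intro g hg
  exact mem_pmGamma1_iff.mp hg

/-- **MERO** for `(Γ₁(M), F1 M)`: the `q`-expansion of every good function for `Γ₁(M)` lies in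
`ℂ·F1(M)`. -/
theorem meroG_f1 : MeroG (Gamma1 M) (F1 M) := by
  haveI := f1_finiteDimensional M
  exact meroG_of_pm (Γ' := pmGamma1 M) (pm_Gamma1 M) (T_mem_Gamma1' M) (genData_f1 M)
    (jq_mem_F1 M) (f1J M) (coe_f1J M) (f1_finrank_eq M).ge

/-- **Leaf `inter`** of `Kum.Leaves`. -/
theorem dictInter_f1 : Kum.DictInter (Gamma1 M) (F1Bar M) :=
  kum_dictInter_of (meroG_f1 M)

/-- **Leaf `mero`** of `Kum.Leaves`. -/
theorem dictMero_f1 : Kum.DictMero (Gamma1 M) (F1Bar M) :=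
  kum_dictMero_of (genData_f1 M)

/-- **Leaf `k3`** of `Kum.Leaves`, from DFROM and DTO for `(Γ₁(M), F1 M)`. -/
theorem pieceK3_f1_of (ℓ : ℕ) (hℓ : ℓ.Prime) (hd : DFromG (Gamma1 M) (F1 M) ℓ)
    (hdto : ∀ {c : Gamma1 M → ZMod ℓ}, Kum.IsParHom (Gamma1 M) c → ∀ {U : ℍ → ℂ},
      Kum.IsTwisted (Gamma1 M) ℓ c U → DToG (F1 M) ℓ U) :
    Kum.PieceK3 (Gamma1 M) (F1Bar M) ℓ :=
  haveI : NeZero ℓ := ⟨hℓ.ne_zero⟩
  haveI := finite_quot_Gamma1 M
  kum_pieceK3_of (Gamma1 M) (T_mem_Gamma1' M) (F1 M) (jq_mem_F1 M) (genData_f1 M) (meroG_f1 M) ℓ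
    hd hdto

end F1

end Fermat.Agent.S48.H882
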