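import Fermat.Agent.S48.H882.K3Gen
import Fermat.Agent.S29.H942.KummerChar
import Fermat.Prelude.Def_ModularCurve_ArithmeticGalois
import Fermat.Prelude.Def_AlgebraicCurve_BaseChangeGalois

/-!
# Tower A1 / A1-KUM, piece K3, GENERIC in `(Γ, F₀)` — FIN and the final form (helper882)

Generic port of the landed `S29/M4b/K3/{Fin,Main,Final}.lean` (helper42).

* `DToG F₀ p U`   : **DTO** (K2 over `ℂ`, "easy half" of the dictionary) for the function `U`: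
    `p ∣ ord_w (qexp (U ^ p))` at EVERY place `w` of `ℂ·F₀ / ℂ`;
* `DFromG Γ F₀ p` : **DFROM** ("hard half" + ROOT over `ℂ`): every `f ∈ (ℂ·F₀)ˣ` all of whose
    orders are divisible by `p` is, up to a `p`-th power of `(ℂ·F₀)ˣ`, the `q`-expansion of
    `V ^ p`, `V` holomorphic on `ℍ` with `V ^ p` good for `Γ`;
* `finG_of_dfrom`  : MERO + DTO + DFROM ⟹ FIN;
* `pieceK3G`       : **K3 generic** — MERO + GEN + DFROM + (DTO for `U`) ⟹ the twisted function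
    `U` can be replaced by a twisted function `U'` of the same character whose `p`-th power
    realises an element of `ℚ̄·F₀`.

For `(Γ, F₀) = (Γ₀(N), modularFunctionFieldFull N)` these are the landed S29 statements
(`GoodG (Gamma0 N) = goodRing N` by `Iff.rfl`); the instance needed by Tower A1 is
`(Γ₁(M), S48.F1.F1 M)`.
-/

set_option autoImplicit false
set_option linter.style.haveILetI false

noncomputable section

open UpperHalfPlane ModularGroup CongruenceSubgroup Polynomial ModularCurve AlgebraicCurve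
open scoped MatrixGroups Manifold Modular Real

namespace Fermat.Agent.S48.H882

open Fermat.Agent.S24 Fermat.Agent.S24.H648 Fermat.Agent.S24.H708 Fermat.Agent.S24.Deg457
open Fermat.Agent.S24.H624

section Defs

variable (Γ : Subgroup SL(2, ℤ)) (F₀ : IntermediateField ℚ (LaurentSeries ℚ))

/-- **DTO** for the function `U`: `p ∣ ord_w (qexp (U ^ p))` at every place `w` of `ℂ·F₀`. -/
def DToG (p : ℕ) (U : ℍ → ℂ) : Prop :=
  ∀ f : laurentBaseChange ℂ F₀, (f : LaurentSeries ℂ) = qexpFun 1 (fun τ => U τ ^ p) →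
    ∀ w : Place ℂ (laurentBaseChange ℂ F₀), (p : ℤ) ∣ w.ord f

/-- **DFROM** for `(Γ, F₀)`: an element `f ≠ 0` of `ℂ·F₀` all of whose orders are divisible by
`p` is, up to the `p`-th power of a nonzero element `s` of `ℂ·F₀`, the `q`-expansion of `V ^ p`
for a holomorphic `V : ℍ → ℂ` with `V ^ p` good for `Γ`. -/
def DFromG (p : ℕ) : Prop :=
  ∀ f : laurentBaseChange ℂ F₀, f ≠ 0 →
    (∀ w : Place ℂ (laurentBaseChange ℂ F₀), (p : ℤ) ∣ w.ord f) →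
    ∃ s : LaurentSeries ℂ, s ∈ laurentBaseChange ℂ F₀ ∧ s ≠ 0 ∧ ∃ V : ℍ → ℂ,
      MDifferentiable 𝓘(ℂ) 𝓘(ℂ) V ∧ GoodG Γ (fun τ => V τ ^ p) ∧
      qexpFun 1 (fun τ => V τ ^ p) = (f : LaurentSeries ℂ) * s ^ p

end Defs

variable {Γ : Subgroup SL(2, ℤ)} {F₀ : IntermediateField ℚ (LaurentSeries ℚ)} {p : ℕ}

/-- There are finitely many characters of exponent `p` of a subgroup of finite index. -/
theorem finite_pCharG (Γ : Subgroup SL(2, ℤ)) [Finite (SL(2, ℤ) ⧸ Γ)] (p : ℕ) [NeZero p] :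
    Finite {κ : Γ →* ℂˣ // ∀ γ, κ γ ^ p = 1} := by
  classical
  haveI : Group.FG SL(2, ℤ) := Group.fg_iff.mpr ⟨{ModularGroup.S, ModularGroup.T},
    SpecialLinearGroup.SL2Z_generators, by simp⟩
  haveI : Γ.FiniteIndex := Subgroup.finiteIndex_of_finite_quotient
  haveI : Group.FG Γ := inferInstance
  obtain ⟨S, hS, hSfin⟩ := Group.fg_iff.mp (inferInstance : Group.FG Γ)
  haveI : Finite S := hSfin
  let Φ : {κ : Γ →* ℂˣ // ∀ γ, κ γ ^ p = 1} → (S → rootsOfUnity p ℂ) :=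
    fun κ s => ⟨κ.1 s, (mem_rootsOfUnity p _).mpr (κ.2 s)⟩
  refine Finite.of_injective Φ ?_
  intro κ₁ κ₂ h
  apply Subtype.ext
  apply MonoidHom.eq_of_eqOn_dense hS
  intro x hx
  have := congrFun h ⟨x, hx⟩
  exact congrArg Subtype.val this

/-- `qexpFun` commutes with powers of functions meromorphic at `i∞`. -/
theorem qexpFun_pow_eq {f : ℍ → ℂ} (hf : IsMerInf 1 f) (n : ℕ) :
    qexpFun 1 (f ^ n) = qexpFun 1 f ^ n := by
  induction n with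
  | zero =>
      rw [pow_zero, pow_zero]
      have h1 : (1 : ℍ → ℂ) = fun _ => (1 : ℂ) := rfl
      rw [h1, qexpFun_const]
      simp
  | succ n ih => rw [pow_succ, qexpFun_mul (hf.pow n) hf, ih, pow_succ]

/-- Two holomorphic functions with good `p`-th powers and the SAME character have `p`-th powers
whose `q`-expansions differ by a `p`-th power of `ℂ·F₀`. -/
theorem exists_pow_mul_eq_of_sameCharG (hp : p ≠ 0) (hT : ModularGroup.T ∈ Γ)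
    (hmero : MeroG Γ F₀) {V₁ V₂ : ℍ → ℂ} (κ : Γ →* ℂˣ) (hκ : ∀ γ, κ γ ^ p = 1)
    (h1m : MDifferentiable 𝓘(ℂ) 𝓘(ℂ) V₁) (h2m : MDifferentiable 𝓘(ℂ) 𝓘(ℂ) V₂)
    (h1 : HasCharG Γ κ V₁) (h2 : HasCharG Γ κ V₂)
    (h1g : GoodG Γ (fun τ => V₁ τ ^ p)) (h2g : GoodG Γ (fun τ => V₂ τ ^ p))
    (h1ne : qexpFun 1 (fun τ => V₁ τ ^ p) ≠ 0) (h2ne : qexpFun 1 (fun τ => V₂ τ ^ p) ≠ 0) :
    ∃ g : LaurentSeries ℂ, g ∈ laurentBaseChange ℂ F₀ ∧ g ≠ 0 ∧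
      qexpFun 1 (fun τ => V₁ τ ^ p) = g ^ p * qexpFun 1 (fun τ => V₂ τ ^ p) := by
  have hp1 : p - 1 + 1 = p := Nat.sub_add_cancel (Nat.one_le_iff_ne_zero.mpr hp)
  set W : ℍ → ℂ := fun τ => V₁ τ * V₂ τ ^ (p - 1) with hWdef
  have hfun : (fun τ => W τ ^ p) = (fun τ => V₁ τ ^ p) * (fun τ => V₂ τ ^ p) ^ (p - 1) := by
    funext τ
    simp only [hWdef, Pi.mul_apply, Pi.pow_apply]
    rw [mul_pow, ← pow_mul, ← pow_mul, mul_comm (p - 1) p]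
  have hWinv : ∀ γ ∈ Γ, ∀ τ : ℍ, W (γ • τ) = W τ := by
    intro γ hγ τ
    have e1 := h1 ⟨γ, hγ⟩ τ
    have e2 := h2 ⟨γ, hγ⟩ τ
    simp only at e1 e2
    simp only [hWdef]
    rw [e1, e2, mul_pow]
    have hk : ((κ ⟨γ, hγ⟩ : ℂˣ) : ℂ) * ((κ ⟨γ, hγ⟩ : ℂˣ) : ℂ) ^ (p - 1) = 1 := by
      rw [← pow_succ', hp1]
      have h3 := congrArg (fun u : ℂˣ => (u : ℂ)) (hκ ⟨γ, hγ⟩)
      simpa using h3
    calc ((κ ⟨γ, hγ⟩ : ℂˣ) : ℂ) * V₁ τ * (((κ ⟨γ, hγ⟩ : ℂˣ) : ℂ) ^ (p - 1) * V₂ τ ^ (p - 1))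
        = (((κ ⟨γ, hγ⟩ : ℂˣ) : ℂ) * ((κ ⟨γ, hγ⟩ : ℂˣ) : ℂ) ^ (p - 1)) *
            (V₁ τ * V₂ τ ^ (p - 1)) := by ring
      _ = V₁ τ * V₂ τ ^ (p - 1) := by rw [hk, one_mul]
  have hW : GoodG Γ W := by
    refine goodG_of_pow_goodG hp (h1m.mul (h2m.pow (p - 1))) hWinv ?_
    rw [hfun]
    exact h1g.mul (h2g.pow _)
  have hWm := isMerInf_of_goodG hT hW
  have h1M := isMerInf_of_goodG hT h1g
  have h2M := isMerInf_of_goodG hT h2g
  set w := qexpFun 1 W with hw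
  set a := qexpFun 1 (fun τ => V₁ τ ^ p) with ha
  set b := qexpFun 1 (fun τ => V₂ τ ^ p) with hb
  have hwFC : w ∈ laurentBaseChange ℂ F₀ := hmero _ hW
  have hbFC : b ∈ laurentBaseChange ℂ F₀ := hmero _ h2g
  have hwp : w ^ p = a * b ^ (p - 1) := by
    have hfun' : W ^ p = (fun τ => V₁ τ ^ p) * (fun τ => V₂ τ ^ p) ^ (p - 1) := hfun
    rw [hw, ← qexpFun_pow_eq hWm p, hfun', qexpFun_mul h1M (h2M.pow (p - 1)),
      qexpFun_pow_eq h2M (p - 1)]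
  refine ⟨w * b⁻¹, mul_mem hwFC (inv_mem hbFC), ?_, ?_⟩
  · refine mul_ne_zero ?_ (inv_ne_zero h2ne)
    intro h0
    rw [h0, zero_pow hp] at hwp
    exact mul_ne_zero h1ne (pow_ne_zero _ h2ne) hwp.symm
  · rw [mul_pow, hwp, inv_pow]
    have hbp : b ^ p = b ^ (p - 1) * b := by rw [← pow_succ, hp1]
    rw [hbp, mul_inv]
    field_simp

/-- Representatives of the fibres of a map to a finite type. -/
theorem exists_finset_fibre_rep' {G X : Type*} [Finite X] (χ : G → X) :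
    ∃ s : Finset G, ∀ g : G, ∃ h ∈ s, χ g = χ h := by
  classical
  haveI : Fintype (Set.range χ) := Fintype.ofFinite _
  let r : Set.range χ → G := fun x => x.2.choose
  have hr : ∀ x : Set.range χ, χ (r x) = x := fun x => x.2.choose_spec
  refine ⟨Finset.univ.image r, fun g => ⟨r ⟨χ g, g, rfl⟩, ?_, ?_⟩⟩
  · exact Finset.mem_image_of_mem _ (Finset.mem_univ _)
  · exact (hr ⟨χ g, g, rfl⟩).symm

/-- **K3-FIN, generic**: from MERO, DFROM and DTO for `U`. -/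
theorem finG_of_dfrom (Γ : Subgroup SL(2, ℤ)) [Finite (SL(2, ℤ) ⧸ Γ)]
    (hT : ModularGroup.T ∈ Γ) (F₀ : IntermediateField ℚ (LaurentSeries ℚ))
    (hmero : MeroG Γ F₀) (p : ℕ) [NeZero p] (hd : DFromG Γ F₀ p)
    {χ : Γ →* ℂˣ} {U : ℍ → ℂ} (hU : IsTwistedG Γ p χ U) (hdto : DToG F₀ p U) :
    FinG F₀ p U := by
  letI : Algebra Kbar ℂ := iotaC.toAlgebra
  classical
  have hp : p ≠ 0 := NeZero.ne p
  set a : LaurentSeries ℂ := qexpFun 1 (fun τ => U τ ^ p) with ha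
  have haFC : a ∈ laurentBaseChange ℂ F₀ := hmero _ hU.pow_good
  have ha0 : a ≠ 0 := hU.qexpFun_pow_ne_zero hT
  set f₀ : laurentBaseChange ℂ F₀ := ⟨a, haFC⟩ with hf₀def
  have hf₀ : f₀ ≠ 0 := fun h => ha0 (congrArg Subtype.val h)
  have hdvd : ∀ w : Place ℂ (laurentBaseChange ℂ F₀), (p : ℤ) ∣ w.ord f₀ :=
    fun w => hdto f₀ rfl w
  -- the data attached to each `σ`
  have key : ∀ σ : ℂ ≃ₐ[Kbar] ℂ, ∃ (s : LaurentSeries ℂ) (V : ℍ → ℂ)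
      (κ : {κ : Γ →* ℂˣ // ∀ γ, κ γ ^ p = 1}), s ∈ laurentBaseChange ℂ F₀ ∧ s ≠ 0 ∧
      MDifferentiable 𝓘(ℂ) 𝓘(ℂ) V ∧ GoodG Γ (fun τ => V τ ^ p) ∧
      HasCharG Γ κ.1 V ∧
      qexpFun 1 (fun τ => V τ ^ p) ≠ 0 ∧
      qexpFun 1 (fun τ => V τ ^ p) = coeffMap (σ : ℂ →+* ℂ) a * s ^ p := by
    intro σ
    set g : SemilinearAut ℂ (laurentBaseChange ℂ F₀) :=
      arithmeticGalois F₀ (σ.toRingEquiv.toRatAlgEquiv) with hg
    have hcoe : ((g • f₀ : laurentBaseChange ℂ F₀) : LaurentSeries ℂ)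
        = coeffMap (σ : ℂ →+* ℂ) a := rfl
    have hne : g • f₀ ≠ 0 := (smul_ne_zero_iff_ne g).mpr hf₀
    have hdvd' : ∀ w : Place ℂ (laurentBaseChange ℂ F₀), (p : ℤ) ∣ w.ord (g • f₀) := by
      intro w
      have h := SemilinearAut.ord_smul g (g⁻¹ • w) f₀
      rw [smul_inv_smul] at h
      rw [h]
      exact hdvd _
    obtain ⟨s, hs, hs0, V, hVm, hVg, hq⟩ := hd (g • f₀) hne hdvd'
    rw [hcoe] at hq
    have hqne : qexpFun 1 (fun τ => V τ ^ p) ≠ 0 := by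
      rw [hq]
      refine mul_ne_zero ?_ (pow_ne_zero _ hs0)
      rw [← hcoe]
      exact fun h => hne (Subtype.ext h)
    have hV0 : V ≠ 0 := by
      intro h0
      apply hqne
      have : (fun τ => V τ ^ p) = 0 := by
        funext τ
        rw [h0]
        simp [hp]
      rw [this]
      exact (qexpFun_eq_zero_iff (isMerInf_of_goodG hT
        (by rw [← this]; exact hVg))).mpr rfl
    obtain ⟨κ, hκ, hVκ⟩ := Fermat.Agent.S29.H942.exists_kummerChar Γ hVm hV0 hp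
      (fun γ hγ z => hVg.2.1 γ hγ z)
    exact ⟨s, V, ⟨κ, hκ⟩, hs, hs0, hVm, hVg, hVκ, hqne, hq⟩
  choose s V κ hs hs0 hVm hVg hVκ hqne hq using key
  haveI := finite_pCharG Γ p
  obtain ⟨R, hR⟩ := exists_finset_fibre_rep' κ
  refine ⟨(fun σ : ℂ ≃ₐ[Kbar] ℂ => coeffMap (σ : ℂ →+* ℂ) a) '' (R : Set (ℂ ≃ₐ[Kbar] ℂ)),
    R.finite_toSet.image _, fun σ => ?_⟩
  obtain ⟨h, hhR, hκeq⟩ := hR σ
  refine ⟨coeffMap (h : ℂ →+* ℂ) a, ⟨h, hhR, rfl⟩, ?_⟩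
  have h2 := hVκ h
  rw [← hκeq] at h2
  obtain ⟨g, hg, hg0, hgeq⟩ := exists_pow_mul_eq_of_sameCharG hp hT hmero (κ σ).1 (κ σ).2
    (hVm σ) (hVm h) (hVκ σ) h2 (hVg σ) (hVg h) (hqne σ) (hqne h)
  rw [hq σ, hq h] at hgeq
  refine ⟨g * s h * (s σ)⁻¹, mul_mem (mul_mem hg (hs h)) (inv_mem (hs σ)),
    mul_ne_zero (mul_ne_zero hg0 (hs0 h)) (inv_ne_zero (hs0 σ)), ?_⟩
  have hsp : s σ ^ p ≠ 0 := pow_ne_zero _ (hs0 σ)
  rw [mul_pow, mul_pow, inv_pow]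
  field_simp
  rw [hgeq]
  ring

/-- **PIECE K3, GENERIC in `(Γ, F₀)`**: from GEN, MERO, DFROM, and DTO for the given `U`. -/
theorem pieceK3G (Γ : Subgroup SL(2, ℤ)) [Finite (SL(2, ℤ) ⧸ Γ)]
    (hT : ModularGroup.T ∈ Γ) (F₀ : IntermediateField ℚ (LaurentSeries ℚ)) (hj : jq ∈ F₀)
    {S : Set (LaurentSeries ℚ)} (hgen : GenData Γ F₀ S) (hmero : MeroG Γ F₀)
    (p : ℕ) [NeZero p] (hd : DFromG Γ F₀ p)
    {χ : Γ →* ℂˣ} (hχT : χ ⟨ModularGroup.T, hT⟩ = 1) {U : ℍ → ℂ}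
    (hU : IsTwistedG Γ p χ U) (hdto : DToG F₀ p U) :
    ∃ (U' : ℍ → ℂ) (u : laurentBaseChange Kbar F₀),
      IsTwistedG Γ p χ U' ∧ RealisesG Γ F₀ u (fun τ => U' τ ^ p) :=
  exists_realised_isTwistedG Γ hT F₀ hj hgen hmero p hχT hU
    (finG_of_dfrom Γ hT F₀ hmero p hd hU hdto)

end Fermat.Agent.S48.H882
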