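import Fermat.Agent.S48.H882.GoodG

/-!
# Tower A1 / A1-KUM (helper882): function fields `K·F₀` generated by realised series — GEN + DEG

Generic version (ANY subgroup `Γ ≤ SL(2,ℤ)`, ANY field `F₀ ⊆ ℚ((q))` generated by a set `S` of
series) of the landed `Γ₀(N)` files `S24/Deg/H457_Alg` (`gens`, `AK`, `laurentBaseChange_full_le`)
and `S29/M4b/K3/{Basic,Deg}` (`exists_div_AK`, `exists_div_goodQ`, `degStatement`).

* `gensG K S`, `AKG K S` : the generators over `K` and the `K`-algebra they generate;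
* `GenData Γ F₀ S` : `F₀ = ℚ(S)` and every `s ∈ S` is the `q`-expansion at `i∞` of a good
  function for `Γ` (for `F₀ = F1 M`, `Γ = Γ₁(M)`: `S = {j(q^d)} ∪ {P_a}`, avatars `j(dτ)`,
  `pFun M a`);
* `exists_div_AKG`, `GenData.exists_div_goodQG` : quotient presentations;
* `GenData.algDeg`, `GenData.degStatement` : **DEG** — every element of `ℂ·F₀` is integral of
  degree `≤ [SL(2,ℤ) : Γ]` over `ℂ(j)` (exactly the hypothesis `hdeg` of `S29.H152.desc_main`).
-/

set_option autoImplicit false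

noncomputable section

open UpperHalfPlane ModularGroup CongruenceSubgroup Polynomial ModularCurve
open scoped MatrixGroups Manifold Modular Real

namespace Fermat.Agent.S48.H882

open Fermat.Agent.S24 Fermat.Agent.S24.H648 Fermat.Agent.S24.H708 Fermat.Agent.S24.Deg457

section Alg

variable (K : Type*) [Field K] [Algebra ℚ K] (S : Set (LaurentSeries ℚ))

/-- The generators `S`, with coefficients in `K`. -/
def gensG : Set (LaurentSeries K) := ⇑(coeffEmb K) '' S

/-- The `K`-algebra generated by `S`. -/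
def AKG : Subalgebra K (LaurentSeries K) := Algebra.adjoin K (gensG K S)

variable {K S}

theorem coeffEmb_mem_AKG {s : LaurentSeries ℚ} (hs : s ∈ S) : coeffEmb K s ∈ AKG K S :=
  Algebra.subset_adjoin ⟨s, hs, rfl⟩

theorem coeffMap_mem_AKG {L : Type*} [Field L] [Algebra ℚ L] (ι : K →+* L)
    {a : LaurentSeries K} (ha : a ∈ AKG K S) : coeffMap ι a ∈ AKG L S := by
  unfold AKG at ha
  induction ha using Algebra.adjoin_induction with
  | mem x hx =>
    obtain ⟨y, hy, rfl⟩ := hx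
    rw [coeffMap_coeffEmb']
    exact Algebra.subset_adjoin ⟨y, hy, rfl⟩
  | algebraMap r =>
    rw [coeffMap_algebraMap']
    exact Subalgebra.algebraMap_mem _ _
  | add x y _ _ hx hy =>
    rw [map_add]; exact Subalgebra.add_mem _ hx hy
  | mul x y _ _ hx hy =>
    rw [map_mul]; exact Subalgebra.mul_mem _ hx hy

theorem coeffEmb_mem_adjoin_gensG {y : LaurentSeries ℚ}
    (hy : y ∈ IntermediateField.adjoin ℚ S) :
    coeffEmb K y ∈ IntermediateField.adjoin K (gensG K S) := by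
  refine IntermediateField.adjoin_induction ℚ
    (p := fun y _ => coeffEmb K y ∈ IntermediateField.adjoin K (gensG K S)) ?_ ?_ ?_ ?_ ?_ hy
  · intro x hx
    exact IntermediateField.subset_adjoin K _ ⟨x, hx, rfl⟩
  · intro c
    have : coeffEmb K (algebraMap ℚ (LaurentSeries ℚ) c)
        = algebraMap K (LaurentSeries K) (algebraMap ℚ K c) := by
      rw [coeffEmb, coeffMap_algebraMap']
    rw [this]
    exact IntermediateField.algebraMap_mem _ _
  · intro x y _ _ hx hy
    rw [map_add]; exact add_mem hx hy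
  · intro x _ hx
    rw [map_inv₀]; exact inv_mem hx
  · intro x y _ _ hx hy
    rw [map_mul]; exact mul_mem hx hy

variable (K) in
/-- The base-changed field `K·F₀` is generated over `K` by `S` if `F₀ ⊆ ℚ(S)`. -/
theorem laurentBaseChange_le_adjoin_gensG {F₀ : IntermediateField ℚ (LaurentSeries ℚ)}
    (hS : F₀ ≤ IntermediateField.adjoin ℚ S) :
    laurentBaseChange K F₀ ≤ IntermediateField.adjoin K (gensG K S) := by
  rw [laurentBaseChange, IntermediateField.adjoin_le_iff]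
  rintro _ ⟨y, hy, rfl⟩
  exact coeffEmb_mem_adjoin_gensG (hS hy)

variable (K) in
/-- The polynomials in the generators lie in `K·F₀` if `S ⊆ F₀`. -/
theorem AKG_le_laurentBaseChange {F₀ : IntermediateField ℚ (LaurentSeries ℚ)}
    (hS : S ⊆ F₀) : AKG K S ≤ (laurentBaseChange K F₀).toSubalgebra := by
  refine Algebra.adjoin_le ?_
  rintro _ ⟨y, hy, rfl⟩
  exact coeffEmb_mem_laurentBaseChange K (hS hy)

variable (K) in
/-- Every element of `K·F₀` is a quotient of two polynomials in the generators. -/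
theorem exists_div_AKG {F₀ : IntermediateField ℚ (LaurentSeries ℚ)}
    (hS : F₀ ≤ IntermediateField.adjoin ℚ S) {x : LaurentSeries K}
    (hx : x ∈ laurentBaseChange K F₀) :
    ∃ r ∈ AKG K S, ∃ s ∈ AKG K S, s ≠ 0 ∧ x = r / s := by
  have h := laurentBaseChange_le_adjoin_gensG K hS hx
  rw [IntermediateField.mem_adjoin_iff_div] at h
  obtain ⟨r, hr, s, hs, rfl⟩ := h
  by_cases hs0 : s = 0
  · refine ⟨0, zero_mem _, 1, one_mem _, one_ne_zero, ?_⟩
    rw [hs0, div_zero, zero_div]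
  · exact ⟨r, hr, s, hs, hs0, rfl⟩

end Alg

/-! ### GEN: generators realised by good functions -/

/-- **GEN** for `(Γ, F₀)`: `F₀ = ℚ(S)` and every generator `s ∈ S` is the `q`-expansion at `i∞`
of a good function for `Γ`. -/
structure GenData (Γ : Subgroup SL(2, ℤ)) (F₀ : IntermediateField ℚ (LaurentSeries ℚ))
    (S : Set (LaurentSeries ℚ)) : Prop where
  subset : S ⊆ F₀
  le_adjoin : F₀ ≤ IntermediateField.adjoin ℚ S
  real : ∀ s ∈ S, coeffEmb ℂ s ∈ goodQG Γ

/-- **MERO** for `(Γ, F₀)`: the `q`-expansion of every good function for `Γ` lies in `ℂ·F₀`. -/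
def MeroG (Γ : Subgroup SL(2, ℤ)) (F₀ : IntermediateField ℚ (LaurentSeries ℚ)) : Prop :=
  ∀ G : ℍ → ℂ, GoodG Γ G → qexpFun 1 G ∈ laurentBaseChange ℂ F₀

namespace GenData

variable {Γ : Subgroup SL(2, ℤ)} {F₀ : IntermediateField ℚ (LaurentSeries ℚ)}
  {S : Set (LaurentSeries ℚ)}

/-- GEN passes to subgroups. -/
theorem mono (h : GenData Γ F₀ S) {Γ' : Subgroup SL(2, ℤ)} (hle : Γ' ≤ Γ) : GenData Γ' F₀ S :=
  ⟨h.subset, h.le_adjoin, fun s hs => by
    obtain ⟨f, hf, hq⟩ := h.real s hs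
    exact ⟨f, hf.mono hle, hq⟩⟩

theorem AKG_le_goodQG (h : GenData Γ F₀ S) : AKG ℂ S ≤ goodQG Γ := by
  refine Algebra.adjoin_le ?_
  rintro _ ⟨s, hs, rfl⟩
  exact h.real s hs

/-- Polynomials in the generators over any `K ⊆ ℂ` are realised by good functions. -/
theorem coeffMap_mem_goodQG (h : GenData Γ F₀ S) {K : Type*} [Field K] [Algebra ℚ K]
    (ι : K →+* ℂ) {a : LaurentSeries K} (ha : a ∈ AKG K S) : coeffMap ι a ∈ goodQG Γ :=
  h.AKG_le_goodQG (coeffMap_mem_AKG ι ha)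

/-- Every element of `ℂ·F₀` is a quotient of `q`-expansions of good functions. -/
theorem exists_div_goodQG (h : GenData Γ F₀ S) {x : LaurentSeries ℂ}
    (hx : x ∈ laurentBaseChange ℂ F₀) :
    ∃ a ∈ goodQG Γ, ∃ b ∈ goodQG Γ, b ≠ 0 ∧ x = a / b := by
  obtain ⟨r, hr, s, hs, hs0, hrs⟩ := exists_div_AKG ℂ h.le_adjoin hx
  exact ⟨r, h.AKG_le_goodQG hr, s, h.AKG_le_goodQG hs, hs0, hrs⟩

theorem laurentBaseChange_le_adjoin_goodQG (h : GenData Γ F₀ S) :
    laurentBaseChange ℂ F₀ ≤ IntermediateField.adjoin ℂ (goodQG Γ : Set (LaurentSeries ℂ)) := by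
  refine (laurentBaseChange_le_adjoin_gensG ℂ h.le_adjoin).trans ?_
  refine IntermediateField.adjoin.mono ℂ _ _ ?_
  rintro _ ⟨s, hs, rfl⟩
  exact h.real s hs

/-- Every element of `ℂ·F₀` is a root of a nonzero polynomial of degree `≤ [SL(2,ℤ) : Γ]` over
`ℂ[j]`. -/
theorem algDeg (h : GenData Γ F₀ S) [Finite (SL(2, ℤ) ⧸ Γ)] {x : LaurentSeries ℂ}
    (hx : x ∈ laurentBaseChange ℂ F₀) : AlgDeg ℂ (Nat.card (SL(2, ℤ) ⧸ Γ)) x :=
  algDeg_of_mem_adjoin_goodQG (h.laurentBaseChange_le_adjoin_goodQG hx)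

/-- **DEG**: `ℂ·F₀` has bounded degree over `ℂ(j)` (hypothesis `hdeg` of `H152.desc_main`). -/
theorem degStatement (h : GenData Γ F₀ S) [Finite (SL(2, ℤ) ⧸ Γ)] :
    ∀ u ∈ laurentBaseChange ℂ F₀,
      IsIntegral (IntermediateField.adjoin ℂ {coeffEmb ℂ jq}) u ∧
        (minpoly (IntermediateField.adjoin ℂ {coeffEmb ℂ jq}) u).natDegree
          ≤ Nat.card (SL(2, ℤ) ⧸ Γ) := by
  intro u hu
  obtain ⟨Q, hQ0, hQn, hQ⟩ := h.algDeg hu
  have hj : ∀ t : ℂ[X], t ≠ 0 →
      aeval (IntermediateField.AdjoinSimple.gen ℂ (coeffEmb ℂ jq)) t ≠ 0 := by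
    intro t ht h0
    apply aeval_JK_ne_zero ℂ ht
    have h1 := congrArg (algebraMap ↥(IntermediateField.adjoin ℂ {coeffEmb ℂ jq})
      (LaurentSeries ℂ)) h0
    rw [← aeval_algebraMap_apply, map_zero, IntermediateField.AdjoinSimple.algebraMap_gen] at h1
    exact h1
  refine isIntegral_and_natDegree_le_of_relation (K := ℂ)
    (IntermediateField.AdjoinSimple.gen ℂ (coeffEmb ℂ jq)) hj u Q hQ0 _ hQn ?_
  rw [IntermediateField.AdjoinSimple.algebraMap_gen]
  exact hQ

end GenData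

end Fermat.Agent.S48.H882
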