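import Fermat.Agent.S48.H882.MeroG

/-!
# Tower A1 / DICT1 over `ℂ` — the degree of `ℂ·F₀` over `ℂ(j)` (helper882)

GENERIC in `(Γ, F₀)` (`GenData Γ F₀ S`, `Γ` of finite index): if
`[SL(2,ℤ) : Γ] ≤ [ℚ̄·F₀ : ℚ̄(j)]` (e.g. `S48.H332.GenData.finrank_eq`), then

* `MCG_eq` : the field generated by the `q`-expansions of the good functions for `Γ` IS `ℂ·F₀`;
* `finrank_FC_eq` : `ℂ·F₀` is finite over `ℂ(j)` of degree EXACTLY `[SL(2,ℤ) : Γ]`
  (`j` = any element `jC` of `ℂ·F₀` with underlying series `coeffEmb ℂ jq`).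

This is the hypothesis "degree = index" of the dictionary over `K = ℂ` (port of `S29/H282`).
-/

set_option autoImplicit false
set_option linter.style.haveILetI false
set_option linter.unusedSectionVars false

noncomputable section

open UpperHalfPlane ModularGroup CongruenceSubgroup Polynomial ModularCurve IntermediateField
open scoped MatrixGroups Manifold Modular Real

namespace Fermat.Agent.S48.H882

open Fermat.Agent.S24 Fermat.Agent.S24.H648 Fermat.Agent.S24.H708 Fermat.Agent.S24.Deg457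

section

variable {Γ : Subgroup SL(2, ℤ)} [Finite (SL(2, ℤ) ⧸ Γ)]
  {F₀ : IntermediateField ℚ (LaurentSeries ℚ)} {S : Set (LaurentSeries ℚ)}
  (hgen : GenData Γ F₀ S) (hj : jq ∈ F₀)
  (jF : ↥(laurentBaseChange Kbar F₀)) (hjF : (jF : LaurentSeries Kbar) = JK Kbar)
  [FiniteDimensional ↥(IntermediateField.adjoin Kbar {jF}) ↥(laurentBaseChange Kbar F₀)]
  (hdeg : Nat.card (SL(2, ℤ) ⧸ Γ)
    ≤ Module.finrank ↥(IntermediateField.adjoin Kbar {jF}) ↥(laurentBaseChange Kbar F₀))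

include hgen hj hjF hdeg in
/-- The field generated by the good functions is `ℂ·F₀`. -/
theorem MCG_eq : MCG Γ = laurentBaseChange ℂ F₀ :=
  le_antisymm (MCG_le_of_card_le_finrank hgen jF hjF hj hdeg) hgen.le_MCG

include hgen hjF hdeg in
/-- `[MCG Γ : ℂ(j)] = [SL(2,ℤ) : Γ]`. -/
theorem finrank_MCG_eq :
    Module.finrank ↥(IntermediateField.adjoin ℂ {jMG Γ}) (MCG Γ) = Nat.card (SL(2, ℤ) ⧸ Γ) := by
  haveI := (finiteDimensional_and_finrank_le_MCG Γ).1
  refine le_antisymm (finiteDimensional_and_finrank_le_MCG Γ).2 ?_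
  obtain ⟨θ, hθ⟩ := Field.exists_primitive_element ↥(IntermediateField.adjoin Kbar {jF})
    ↥(laurentBaseChange Kbar F₀)
  have hθd := (Field.primitive_element_iff_minpoly_natDegree_eq _ θ).mp hθ
  have h1 := natDegree_minpoly_le_thetaM hgen jF hjF θ
  have h3 : (minpoly ↥(IntermediateField.adjoin ℂ {jMG Γ}) (thetaM hgen θ)).natDegree ≤
      Module.finrank ↥(IntermediateField.adjoin ℂ {jMG Γ}) (MCG Γ) := minpoly.natDegree_le _
  omega

/-- Transport of the degree along an equality of intermediate fields. -/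
theorem finrank_eq_of_eq_MCG (n : ℕ)
    (hn : Module.finrank ↥(IntermediateField.adjoin ℂ {jMG Γ}) (MCG Γ) = n)
    (E : IntermediateField ℂ (LaurentSeries ℂ)) (hE : MCG Γ = E)
    (jC : E) (hjC : (jC : LaurentSeries ℂ) = JK ℂ) :
    FiniteDimensional ↥(IntermediateField.adjoin ℂ {jC}) E ∧
      Module.finrank ↥(IntermediateField.adjoin ℂ {jC}) E = n := by
  subst hE
  have hjj : jC = jMG Γ := Subtype.ext hjC
  subst hjj
  exact ⟨(finiteDimensional_and_finrank_le_MCG Γ).1, hn⟩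

include hgen hj hjF hdeg in
/-- **DEG over `ℂ`**: `ℂ·F₀` is finite over `ℂ(j)` of degree `[SL(2,ℤ) : Γ]`. -/
theorem finrank_FC_eq (jC : ↥(laurentBaseChange ℂ F₀))
    (hjC : (jC : LaurentSeries ℂ) = JK ℂ) :
    FiniteDimensional ↥(IntermediateField.adjoin ℂ {jC}) ↥(laurentBaseChange ℂ F₀) ∧
      Module.finrank ↥(IntermediateField.adjoin ℂ {jC}) ↥(laurentBaseChange ℂ F₀)
        = Nat.card (SL(2, ℤ) ⧸ Γ) :=
  finrank_eq_of_eq_MCG _ (finrank_MCG_eq hgen jF hjF hdeg) _ (MCG_eq hgen hj jF hjF hdeg) jC hjC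

end

end Fermat.Agent.S48.H882
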