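import Fermat.Agent.S48.H882.K3Leaf
import Fermat.Agent.S48.H882.DegC

/-!
# Tower A1 / DICT1 over `ℂ` for `F1 M` — degree and GEN for `±Γ₁(M)` (helper882)

Instances for `(±Γ₁(M), F1 M)` (`pmGamma1 M` of `S48.H332.F1Inst`) of the generic files
`GenField.lean`, `MeroG.lean`, `DegC.lean`:

* `genData_f1_pm M   : GenData (pmGamma1 M) (F1 M) (f1Gens M)`;
* `meroG_f1_pm M     : MeroG (pmGamma1 M) (F1 M)`;
* `f1C_MCG_eq M      : MCG (pmGamma1 M) = laurentBaseChange ℂ (F1 M)`;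
* `f1C_finrank_eq M  : [ℂ·F1(M) : ℂ(j)] = [SL(2,ℤ) : ±Γ₁(M)]` (+ finite-dimensionality),
  the degree hypothesis of the dictionary over `ℂ` (inputs DFROM / DTO of leaf `k3`).
-/

set_option autoImplicit false
set_option linter.style.haveILetI false
set_option linter.unusedSectionVars false

noncomputable section

open UpperHalfPlane ModularGroup CongruenceSubgroup Polynomial ModularCurve IntermediateField
open scoped MatrixGroups Manifold Modular Real

namespace Fermat.Agent.S48.H882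

open Fermat.Agent.S24 Fermat.Agent.S24.H648 Fermat.Agent.S24.H708 Fermat.Agent.S24.Deg457
open Fermat.Agent.S48.F1 Fermat.Agent.S48.H332

variable (M : ℕ) [NeZero M]

/-- `j` as an element of `ℂ·F1(M)`. -/
def f1JC : ↥(laurentBaseChange ℂ (F1 M)) :=
  ⟨coeffEmb ℂ jq, coeffEmb_mem_laurentBaseChange ℂ (jq_mem_F1 M)⟩

theorem coe_f1JC : ((f1JC M : ↥(laurentBaseChange ℂ (F1 M))) : LaurentSeries ℂ) = JK ℂ := rfl

/-- **GEN** for `(±Γ₁(M), F1 M)`. -/
theorem genData_f1_pm : GenData (pmGamma1 M) (F1 M) (f1Gens M) :=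
  (genData_f1 M).of_pm (pm_Gamma1 M)

theorem T_mem_pmGamma1 : ModularGroup.T ∈ pmGamma1 M :=
  Gamma1_le_pmGamma1 M (T_mem_Gamma1' M)

/-- **MERO** for `(±Γ₁(M), F1 M)`. -/
theorem meroG_f1_pm : MeroG (pmGamma1 M) (F1 M) := by
  haveI := f1_finiteDimensional M
  exact meroG_of_card_le_finrank (T_mem_pmGamma1 M) (genData_f1_pm M)
    (jq_mem_F1 M) (f1J M) (coe_f1J M) (f1_finrank_eq M).ge

/-- The field generated by the `q`-expansions of the good functions for `±Γ₁(M)` is `ℂ·F1(M)`. -/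
theorem f1C_MCG_eq : MCG (pmGamma1 M) = laurentBaseChange ℂ (F1 M) := by
  haveI := f1_finiteDimensional M
  exact MCG_eq (genData_f1_pm M) (jq_mem_F1 M) (f1J M) (coe_f1J M) (f1_finrank_eq M).ge

/-- **DEG over `ℂ`** for `F1 M`: `[ℂ·F1(M) : ℂ(j)] = [SL(2,ℤ) : ±Γ₁(M)]`. -/
theorem f1C_finrank_eq :
    FiniteDimensional ↥(IntermediateField.adjoin ℂ {f1JC M}) ↥(laurentBaseChange ℂ (F1 M)) ∧
      Module.finrank ↥(IntermediateField.adjoin ℂ {f1JC M}) ↥(laurentBaseChange ℂ (F1 M))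
        = Nat.card (SL(2, ℤ) ⧸ pmGamma1 M) := by
  haveI := f1_finiteDimensional M
  exact finrank_FC_eq (genData_f1_pm M) (jq_mem_F1 M) (f1J M) (coe_f1J M) (f1_finrank_eq M).ge
    (f1JC M) (coe_f1JC M)

end Fermat.Agent.S48.H882
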