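import Fermat.Agent.S24.Deg.H648D5
import Fermat.Agent.S29.H882.GoodQ
import Fermat.Agent.S29.H882.FieldDeg

/-!
# Tower A1 / A1-KUM (helper882): good functions and their `q`-expansions for ANY subgroup `Γ`

Generic version (any subgroup `Γ ≤ SL(2,ℤ)`) of the landed `Γ₀(N)` files `S24/Deg/H648Conj`,
`S24/Deg/H648D5` and `S29/H882/GoodQ`:

* `GoodG Γ f` : `f` is holomorphic on `ℍ`, `Γ`-invariant and all `SL(2,ℤ)`-translates have at most
  exponential growth (`= S48.H332.IsGoodFor Γ f`, `= f ∈ S24.H648.goodRing N` for `Γ = Γ₀(N)`);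
* `goodRingG Γ`, `goodQG Γ` (the algebra of `q`-expansions at `i∞`);
* `exists_monic_of_mem_goodQG` : for `Γ` of finite index, every element of `goodQG Γ` is a root of
  a monic polynomial of degree `[SL(2,ℤ) : Γ]` over `ℂ[j]`;
* `algDeg_of_mem_adjoin_goodQG` : hence every element of the FIELD generated by `goodQG Γ` is
  algebraic of degree `≤ [SL(2,ℤ) : Γ]` over `ℂ[j]`.
-/

set_option autoImplicit false

noncomputable section

open UpperHalfPlane ModularGroup CongruenceSubgroup Polynomial ModularCurve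
open scoped MatrixGroups Manifold Modular Real

namespace Fermat.Agent.S48.H882

open Fermat.Agent.S24 Fermat.Agent.S24.H648 Fermat.Agent.S24.H708 Fermat.Agent.S24.Deg457

variable (Γ : Subgroup SL(2, ℤ))

/-- `f` is a good function for `Γ`: holomorphic, `Γ`-invariant, all `SL(2,ℤ)`-translates of at
most exponential growth at `i∞`. -/
def GoodG (f : ℍ → ℂ) : Prop :=
  MDifferentiable 𝓘(ℂ) 𝓘(ℂ) f ∧ (∀ γ ∈ Γ, ∀ τ : ℍ, f (γ • τ) = f τ) ∧
    ∀ g : SL(2, ℤ), ExpGrowth (fun τ => f (g • τ))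

theorem goodG_Gamma0_iff {N : ℕ} {f : ℍ → ℂ} : GoodG (Gamma0 N) f ↔ f ∈ goodRing N := Iff.rfl

variable {Γ} in
theorem GoodG.mono {Γ' : Subgroup SL(2, ℤ)} {f : ℍ → ℂ} (h : GoodG Γ' f) (hle : Γ ≤ Γ') :
    GoodG Γ f :=
  ⟨h.1, fun γ hγ τ => h.2.1 γ (hle hγ) τ, h.2.2⟩

/-- A good function for `SL(2,ℤ) = Γ₀(1)` is good for every `Γ`. -/
theorem goodG_of_mem_goodRing_one {f : ℍ → ℂ} (hf : f ∈ goodRing 1) : GoodG Γ f := by
  refine ⟨hf.1, fun γ _ τ => hf.2.1 γ ?_ τ, hf.2.2⟩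
  rw [Gamma0_mem]
  exact Subsingleton.elim _ _

/-- The algebra of good functions for `Γ`. -/
def goodRingG : Subalgebra ℂ (ℍ → ℂ) where
  carrier := {f | GoodG Γ f}
  mul_mem' := by
    rintro f g ⟨h1, h2, h3⟩ ⟨h1', h2', h3'⟩
    refine ⟨h1.mul h1', fun γ hγ τ => ?_, fun g => ?_⟩
    · show f (γ • τ) * g (γ • τ) = f τ * g τ
      rw [h2 γ hγ τ, h2' γ hγ τ]
    · exact (h3 g).mul (h3' g)
  add_mem' := by
    rintro f g ⟨h1, h2, h3⟩ ⟨h1', h2', h3'⟩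
    refine ⟨h1.add h1', fun γ hγ τ => ?_, fun g => ?_⟩
    · show f (γ • τ) + g (γ • τ) = f τ + g τ
      rw [h2 γ hγ τ, h2' γ hγ τ]
    · exact (h3 g).add (h3' g)
  algebraMap_mem' := fun c =>
    ⟨mdifferentiable_const, fun _ _ _ => rfl, fun _ => expGrowth_const c⟩

variable {Γ}

theorem mem_goodRingG {f : ℍ → ℂ} : f ∈ goodRingG Γ ↔ GoodG Γ f := Iff.rfl

theorem GoodG.mul {f g : ℍ → ℂ} (hf : GoodG Γ f) (hg : GoodG Γ g) : GoodG Γ (f * g) :=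
  (goodRingG Γ).mul_mem hf hg

theorem GoodG.add {f g : ℍ → ℂ} (hf : GoodG Γ f) (hg : GoodG Γ g) : GoodG Γ (f + g) :=
  (goodRingG Γ).add_mem hf hg

theorem GoodG.pow {f : ℍ → ℂ} (hf : GoodG Γ f) (n : ℕ) : GoodG Γ (f ^ n) :=
  (goodRingG Γ).pow_mem hf n

theorem GoodG.const (c : ℂ) : GoodG Γ (fun _ => c) :=
  (goodRingG Γ).algebraMap_mem c

/-! ### Conjugates and the characteristic polynomial -/

variable (Γ) in
/-- The conjugate `f ∘ gₓ⁻¹` of `f` attached to the coset `x = gₓ Γ`. -/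
def conjG (f : ℍ → ℂ) (x : SL(2, ℤ) ⧸ Γ) : ℍ → ℂ :=
  fun τ => f ((Quotient.out x)⁻¹ • τ)

theorem conjG_mk {f : ℍ → ℂ} (hf : ∀ γ ∈ Γ, ∀ τ : ℍ, f (γ • τ) = f τ) (g : SL(2, ℤ))
    (τ : ℍ) : conjG Γ f (g : SL(2, ℤ) ⧸ Γ) τ = f (g⁻¹ • τ) := by
  obtain ⟨h, hh⟩ := QuotientGroup.mk_out_eq_mul Γ g
  unfold conjG
  rw [hh, mul_inv_rev, mul_smul]
  exact hf _ (inv_mem h.2) _

theorem conjG_smul {f : ℍ → ℂ} (hf : ∀ γ ∈ Γ, ∀ τ : ℍ, f (γ • τ) = f τ) (γ : SL(2, ℤ))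
    (x : SL(2, ℤ) ⧸ Γ) (τ : ℍ) : conjG Γ f x (γ • τ) = conjG Γ f (γ⁻¹ • x) τ := by
  induction x using QuotientGroup.induction_on with
  | H g =>
    rw [conjG_mk hf, MulAction.Quotient.smul_mk, conjG_mk hf, smul_eq_mul, mul_inv_rev, inv_inv,
      mul_smul]

theorem conjG_one_coset {f : ℍ → ℂ} (hf : ∀ γ ∈ Γ, ∀ τ : ℍ, f (γ • τ) = f τ) (τ : ℍ) :
    conjG Γ f ((1 : SL(2, ℤ)) : SL(2, ℤ) ⧸ Γ) τ = f τ := by
  rw [conjG_mk hf]; simp

theorem conjG_mem_niceRing {f : ℍ → ℂ} (hf : GoodG Γ f) (x : SL(2, ℤ) ⧸ Γ) :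
    conjG Γ f x ∈ niceRing :=
  ⟨mdifferentiable_comp_smul hf.1 _, hf.2.2 _⟩

variable (Γ) in
/-- The "characteristic polynomial" `∏ₓ (Y - f ∘ gₓ⁻¹)` evaluated at `τ`. -/
def charPolyAtG [Fintype (SL(2, ℤ) ⧸ Γ)] (f : ℍ → ℂ) (τ : ℍ) : ℂ[X] :=
  ∏ x : SL(2, ℤ) ⧸ Γ, (X - C (conjG Γ f x τ))

section charPoly

variable [Fintype (SL(2, ℤ) ⧸ Γ)]

theorem charPolyAtG_monic (f : ℍ → ℂ) (τ : ℍ) : (charPolyAtG Γ f τ).Monic :=
  Polynomial.monic_prod_of_monic _ _ fun _ _ => Polynomial.monic_X_sub_C _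

theorem charPolyAtG_natDegree (f : ℍ → ℂ) (τ : ℍ) :
    (charPolyAtG Γ f τ).natDegree = Fintype.card (SL(2, ℤ) ⧸ Γ) := by
  unfold charPolyAtG
  rw [Polynomial.natDegree_prod_of_monic _ _ fun _ _ => Polynomial.monic_X_sub_C _]
  simp

theorem charPolyAtG_smul {f : ℍ → ℂ} (hf : ∀ γ ∈ Γ, ∀ τ : ℍ, f (γ • τ) = f τ)
    (γ : SL(2, ℤ)) (τ : ℍ) : charPolyAtG Γ f (γ • τ) = charPolyAtG Γ f τ := by
  unfold charPolyAtG
  refine Fintype.prod_equiv (MulAction.toPerm γ⁻¹) _ _ fun x => ?_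
  rw [conjG_smul hf]
  rfl

theorem charPolyAtG_eval_self {f : ℍ → ℂ} (hf : ∀ γ ∈ Γ, ∀ τ : ℍ, f (γ • τ) = f τ)
    (τ : ℍ) : (charPolyAtG Γ f τ).eval (f τ) = 0 := by
  unfold charPolyAtG
  rw [Polynomial.eval_prod]
  refine Finset.prod_eq_zero (Finset.mem_univ ((1 : SL(2, ℤ)) : SL(2, ℤ) ⧸ Γ)) ?_
  rw [conjG_one_coset hf]
  simp

theorem coeff_charPolyAtG_mem_niceRing {f : ℍ → ℂ} (hf : GoodG Γ f) (k : ℕ) :
    (fun τ => (charPolyAtG Γ f τ).coeff k) ∈ niceRing :=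
  coeff_prod_mem_niceRing (conjG Γ f) (conjG_mem_niceRing hf) Finset.univ k

/-- The conjugate product `∏ₓ (Y - f ∘ gₓ⁻¹)` of a good function `f` has coefficients in
`ℂ[j]`. -/
theorem exists_charPolyG_jFun {f : ℍ → ℂ} (hf : GoodG Γ f) :
    ∃ P : (ℂ[X])[X], P.Monic ∧ P.natDegree = Fintype.card (SL(2, ℤ) ⧸ Γ) ∧
      ∀ τ : ℍ, P.map (Polynomial.evalRingHom (H648.jFun τ)) = charPolyAtG Γ f τ := by
  classical
  set n := Fintype.card (SL(2, ℤ) ⧸ Γ) with hn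
  have key : ∀ k : ℕ, ∃ p : ℂ[X], ∀ τ, (charPolyAtG Γ f τ).coeff k = p.eval (H648.jFun τ) := by
    intro k
    have h := coeff_charPolyAtG_mem_niceRing hf k
    exact exists_polynomial_of_expGrowth _ h.1
      (fun γ τ => by rw [charPolyAtG_smul hf.2.1]) h.2
  choose p hp using key
  set Q : (ℂ[X])[X] := ∑ i ∈ Finset.range n, C (p i) * X ^ i with hQ
  have hQdeg : Q.degree < n := by
    rw [Polynomial.degree_lt_iff_coeff_zero]
    intro m hm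
    rw [hQ, Polynomial.finsetSum_coeff]
    refine Finset.sum_eq_zero fun i hi => ?_
    rw [Polynomial.coeff_C_mul_X_pow, if_neg]
    have := Finset.mem_range.mp hi
    omega
  refine ⟨X ^ n + Q, Polynomial.monic_X_pow_add hQdeg, ?_, fun τ => ?_⟩
  · rw [Polynomial.natDegree_add_eq_left_of_degree_lt (by rwa [Polynomial.degree_X_pow]),
      Polynomial.natDegree_X_pow]
  · have h1 := (charPolyAtG_monic (Γ := Γ) f τ).as_sum
    rw [charPolyAtG_natDegree] at h1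
    rw [h1, Polynomial.map_add, Polynomial.map_pow, Polynomial.map_X, hQ, Polynomial.map_sum]
    congr 1
    refine Finset.sum_congr rfl fun i _ => ?_
    rw [Polynomial.map_mul, Polynomial.map_pow, Polynomial.map_X, Polynomial.map_C,
      Polynomial.coe_evalRingHom, ← hp i τ]

theorem exists_charPolyG_jFun_eval_eq_zero {f : ℍ → ℂ} (hf : GoodG Γ f) :
    ∃ P : (ℂ[X])[X], P.Monic ∧ P.natDegree = Fintype.card (SL(2, ℤ) ⧸ Γ) ∧
      ∀ τ : ℍ, (P.map (Polynomial.evalRingHom (H648.jFun τ))).eval (f τ) = 0 := by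
  obtain ⟨P, h1, h2, h3⟩ := exists_charPolyG_jFun hf
  exact ⟨P, h1, h2, fun τ => by rw [h3, charPolyAtG_eval_self hf.2.1]⟩

end charPoly

/-! ### `q`-expansions at `i∞` (for `T ∈ Γ`) -/

/-- A `Γ`-invariant function is `1`-periodic if `T ∈ Γ`. -/
theorem periodic_of_invariantG (hT : ModularGroup.T ∈ Γ) {f : ℍ → ℂ}
    (hf : ∀ γ ∈ Γ, ∀ τ : ℍ, f (γ • τ) = f τ) :
    Function.Periodic (f ∘ ofComplex) (1 : ℝ) := by
  intro w
  by_cases hw : 0 < Complex.im w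
  · have hw' : 0 < Complex.im (w + ((1 : ℝ) : ℂ)) := by simpa using hw
    simp only [Function.comp_apply, ofComplex_apply_of_im_pos hw', ofComplex_apply_of_im_pos hw]
    have h := hf _ hT ⟨w, hw⟩
    rw [← h]
    congr 1
    apply UpperHalfPlane.ext
    rw [UpperHalfPlane.modular_T_smul, UpperHalfPlane.coe_vadd]
    simp [add_comm]
  · have hw0 : Complex.im w ≤ 0 := not_lt.mp hw
    have hw' : Complex.im (w + ((1 : ℝ) : ℂ)) ≤ 0 := by simpa using hw0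
    simp only [Function.comp_apply]
    rw [ofComplex_apply_of_im_nonpos hw', ofComplex_apply_of_im_nonpos hw0]

theorem isMerInf_of_goodG (hT : ModularGroup.T ∈ Γ) {f : ℍ → ℂ} (hf : GoodG Γ f) :
    IsMerInf 1 f := by
  obtain ⟨h1, h2, h3⟩ := hf
  refine ⟨h1, ?_, ?_⟩
  · have := periodic_of_invariantG hT h2
    simpa using this
  · have h := h3 1
    simp only [one_smul] at h
    exact Fermat.Agent.S29.H882.isBounded_mul_qh_pow_of_expGrowth h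

theorem hasQExp_of_goodG (hT : ModularGroup.T ∈ Γ) {f : ℍ → ℂ} (hf : GoodG Γ f) :
    HasQExp 1 f (qexpFun 1 f) :=
  HasQExp.of_isMerInf (isMerInf_of_goodG hT hf)

variable (Γ) in
/-- The algebra of `q`-expansions of good functions for `Γ`. -/
def goodQG : Subalgebra ℂ (LaurentSeries ℂ) where
  carrier := {b | ∃ f, GoodG Γ f ∧ HasQExp 1 f b}
  mul_mem' := by
    rintro a b ⟨f, hf, hfa⟩ ⟨g, hg, hgb⟩
    exact ⟨f * g, hf.mul hg, hfa.mul hgb⟩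
  add_mem' := by
    rintro a b ⟨f, hf, hfa⟩ ⟨g, hg, hgb⟩
    exact ⟨f + g, hf.add hg, hfa.add hgb⟩
  algebraMap_mem' := fun c => by
    refine ⟨fun _ => c, GoodG.const c, ?_⟩
    have : algebraMap ℂ (LaurentSeries ℂ) c = HahnSeries.C c := by
      rw [algebraMap_laurentSeries_eq_single]; rfl
    rw [this]
    exact HasQExp.const 1 c

theorem mem_goodQG {b : LaurentSeries ℂ} :
    b ∈ goodQG Γ ↔ ∃ f, GoodG Γ f ∧ HasQExp 1 f b := Iff.rfl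

theorem qexpFun_mem_goodQG (hT : ModularGroup.T ∈ Γ) {f : ℍ → ℂ} (hf : GoodG Γ f) :
    qexpFun 1 f ∈ goodQG Γ :=
  ⟨f, hf, hasQExp_of_goodG hT hf⟩

variable (Γ) in
/-- `j` is good for every `Γ`. -/
theorem JK_mem_goodQG : JK ℂ ∈ goodQG Γ := by
  obtain ⟨f, hf, hq⟩ := Fermat.Agent.S29.H882.JK_mem_goodQ 1
  exact ⟨f, goodG_of_mem_goodRing_one Γ hf, hq⟩

/-- Every `q`-expansion of a good function for `Γ` (of finite index) is a root of a monic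
polynomial of degree `[SL(2,ℤ) : Γ]` over `ℂ[j]`. -/
theorem exists_monic_of_mem_goodQG [Finite (SL(2, ℤ) ⧸ Γ)] {b : LaurentSeries ℂ}
    (hb : b ∈ goodQG Γ) :
    ∃ P : ℂ[X][X], P.Monic ∧ P.natDegree = Nat.card (SL(2, ℤ) ⧸ Γ) ∧
      P.eval₂ (evJ (JK ℂ)) b = 0 := by
  obtain ⟨f, hf, hfb⟩ := hb
  let _inst : Fintype (SL(2, ℤ) ⧸ Γ) := Fintype.ofFinite _
  obtain ⟨P, hPm, hPn, hP⟩ := exists_charPolyG_jFun_eval_eq_zero (Γ := Γ) hf
  refine ⟨P, hPm, ?_, ?_⟩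
  · rw [hPn, Nat.card_eq_fintype_card]
  · have h1 := hasQExp_eval₂ P hfb
    rw [h1.eq_zero_iff]
    funext τ
    exact hP τ

theorem algDeg_of_mem_goodQG [Finite (SL(2, ℤ) ⧸ Γ)] {b : LaurentSeries ℂ}
    (hb : b ∈ goodQG Γ) : AlgDeg ℂ (Nat.card (SL(2, ℤ) ⧸ Γ)) b := by
  obtain ⟨P, hPm, hPn, hP⟩ := exists_monic_of_mem_goodQG hb
  exact ⟨P, hPm.ne_zero, hPn.le, hP⟩

/-- Every element of the FIELD generated by the `q`-expansions of good functions is algebraic of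
degree `≤ [SL(2,ℤ) : Γ]` over `ℂ[j]`. -/
theorem algDeg_of_mem_adjoin_goodQG [Finite (SL(2, ℤ) ⧸ Γ)] {x : LaurentSeries ℂ}
    (hx : x ∈ IntermediateField.adjoin ℂ (goodQG Γ : Set (LaurentSeries ℂ))) :
    AlgDeg ℂ (Nat.card (SL(2, ℤ) ⧸ Γ)) x :=
  Fermat.Agent.S29.H882.algDeg_of_mem_adjoin (goodQG Γ) (JK_mem_goodQG Γ)
    (fun _ hb => algDeg_of_mem_goodQG hb) hx

end Fermat.Agent.S48.H882
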