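import Fermat.Agent.S48.H882.GenField
import Fermat.Agent.S29.H152.DescMain
import Fermat.Agent.S29.H751.PthRootUHP
import Fermat.Agent.S24.H624.SL2Z

/-!
# Tower A1 / A1-KUM, piece K3 (descent `ℂ → ℚ̄`), GENERIC in `(Γ, F₀)` — TOP (helper882)

Generic port of the landed `S29/M4b/K3/{Basic,Top}.lean` (helper42) from `(Γ₀(N), F₀(N))` to ANY
subgroup `Γ ≤ SL(2,ℤ)` of finite index containing `T` and ANY field `F₀ ⊆ ℚ((q))` with `jq ∈ F₀`.

Interface (all `Prop`s about `q`-expansions at `i∞`; characters are `χ : Γ →* ℂˣ`, as in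
`S48.H332.GHasChar` and `S29.H942.exists_kummerChar`):

* `HasCharG Γ χ U`      : `U (γ τ) = χ γ * U τ`;
* `IsTwistedG Γ p χ U`  : `U` holomorphic, `≠ 0`, of character `χ`, `U ^ p` good for `Γ`;
* `RealisesG Γ F₀ u G`  : `G` good for `Γ`, `qexp G = ι u`, `u ∈ ℚ̄·F₀`;
* `MeroG Γ F₀`          : **MERO** (file `GenField.lean`; proved in `MeroG.lean` from the degree);
* `GenData Γ F₀ S`      : **GEN** (file `GenField.lean`);
* `FinG F₀ p U`         : **FIN** — finiteness of the `Aut(ℂ/ℚ̄)`-orbit of the class of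
  `qexp (U ^ p)` modulo `p`-th powers (proved in `K3Fin.lean` from DTO + DFROM + MERO).

Main result `exists_realised_isTwistedG` : MERO + GEN + FIN ⟹ for a twisted function `U` of a
character `χ` with `χ T = 1` there are `U'` twisted of the SAME character and `u ∈ ℚ̄·F₀` with
`U' ^ p` realising `u`.
-/

set_option autoImplicit false
set_option linter.style.haveILetI false

noncomputable section

open UpperHalfPlane ModularGroup CongruenceSubgroup Polynomial ModularCurve AlgebraicCurve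
open scoped MatrixGroups Manifold Modular Real

namespace Fermat.Agent.S48.H882

open Fermat.Agent.S24 Fermat.Agent.S24.H648 Fermat.Agent.S24.H708 Fermat.Agent.S24.Deg457
open Fermat.Agent.S24.H624

/-! ### Interface definitions -/

section Defs

variable (Γ : Subgroup SL(2, ℤ)) (F₀ : IntermediateField ℚ (LaurentSeries ℚ))

/-- `U` transforms under `Γ` by the character `χ`. -/
def HasCharG (χ : Γ →* ℂˣ) (U : ℍ → ℂ) : Prop :=
  ∀ (γ : Γ) (τ : ℍ), U ((γ : SL(2, ℤ)) • τ) = ((χ γ : ℂˣ) : ℂ) * U τ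

/-- `U` is a twisted function of character `χ` and exponent `p`: holomorphic on `ℍ`, not
identically zero, of character `χ`, with `U ^ p` good for `Γ`. -/
structure IsTwistedG (p : ℕ) (χ : Γ →* ℂˣ) (U : ℍ → ℂ) : Prop where
  mdiff : MDifferentiable 𝓘(ℂ) 𝓘(ℂ) U
  ne_zero : ∃ τ : ℍ, U τ ≠ 0
  hasChar : HasCharG Γ χ U
  pow_good : GoodG Γ (fun τ => U τ ^ p)

/-- `G` realises `u ∈ ℚ̄·F₀`: `G` is good for `Γ` and its `q`-expansion at `i∞` is `u` (with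
coefficients embedded by `Deg457.iotaC`). -/
def RealisesG (u : laurentBaseChange Kbar F₀) (G : ℍ → ℂ) : Prop :=
  GoodG Γ G ∧ qexpFun 1 G = coeffMap iotaC ((u : laurentBaseChange Kbar F₀) : LaurentSeries Kbar)

/-- **FIN** for the function `U`: the `Aut(ℂ/ℚ̄)`-orbit of the class of `qexp (U ^ p)` in
`(ℂ·F₀)ˣ / (ℂ·F₀)ˣ ^ p` is finite (hypothesis `horb` of `S29.H152.desc_main`). -/
def FinG (p : ℕ) (U : ℍ → ℂ) : Prop :=
  letI : Algebra Kbar ℂ := iotaC.toAlgebra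
  ∃ T : Set (LaurentSeries ℂ), T.Finite ∧ ∀ σ : ℂ ≃ₐ[Kbar] ℂ, ∃ t ∈ T,
    ∃ u ∈ laurentBaseChange ℂ F₀, u ≠ 0 ∧
      coeffMap (σ : ℂ →+* ℂ) (qexpFun 1 (fun τ => U τ ^ p)) = t * u ^ p

end Defs

/-! ### Basic lemmas -/

section Basic

variable {Γ : Subgroup SL(2, ℤ)} {p : ℕ}

theorem order_jq_eq : jq.order = -1 := by
  have hne : jq ≠ 0 := by
    intro h
    have h1 := coeff_jq_neg_one
    rw [h, HahnSeries.coeff_zero] at h1
    exact zero_ne_one h1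
  refine le_antisymm (HahnSeries.order_le_of_coeff_ne_zero ?_) ?_
  · rw [coeff_jq_neg_one]
    exact one_ne_zero
  · by_contra hlt
    rw [not_le] at hlt
    refine HahnSeries.coeff_order_eq_zero.not.mpr hne ?_
    exact coeff_jq_of_lt hlt

/-- A function of a character trivial on `T` is `1`-periodic. -/
theorem periodic_of_hasCharG (hT : ModularGroup.T ∈ Γ) {χ : Γ →* ℂˣ}
    (hχT : χ ⟨ModularGroup.T, hT⟩ = 1) {U : ℍ → ℂ} (hU : HasCharG Γ χ U) :
    Function.Periodic (U ∘ ofComplex) (1 : ℝ) := by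
  have hTτ : ∀ τ : ℍ, U (ModularGroup.T • τ) = U τ := by
    intro τ
    have h := hU ⟨ModularGroup.T, hT⟩ τ
    rw [hχT, Units.val_one, one_mul] at h
    exact h
  intro w
  by_cases hw : 0 < Complex.im w
  · have hw' : 0 < Complex.im (w + ((1 : ℝ) : ℂ)) := by simpa using hw
    simp only [Function.comp_apply, ofComplex_apply_of_im_pos hw', ofComplex_apply_of_im_pos hw]
    rw [← hTτ ⟨w, hw⟩]
    congr 1
    apply UpperHalfPlane.ext
    rw [UpperHalfPlane.modular_T_smul, UpperHalfPlane.coe_vadd]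
    simp [add_comm]
  · have hw0 : Complex.im w ≤ 0 := not_lt.mp hw
    have hw' : Complex.im (w + ((1 : ℝ) : ℂ)) ≤ 0 := by simpa using hw0
    simp only [Function.comp_apply]
    rw [ofComplex_apply_of_im_nonpos hw', ofComplex_apply_of_im_nonpos hw0]

/-- If `U ^ p` (`p ≠ 0`) has at most exponential growth, so has `U`. -/
theorem expGrowth_of_pow_expGrowth (hp : p ≠ 0) {U : ℍ → ℂ}
    (h : ExpGrowth (fun τ => U τ ^ p)) : ExpGrowth U := by
  obtain ⟨C, m, hC⟩ := h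
  refine ⟨1 + |C|, m, fun τ hτ => ?_⟩
  have h1 := hC τ hτ
  rw [norm_pow] at h1
  have hexp : (1 : ℝ) ≤ Real.exp (2 * Real.pi * m * τ.im) := by
    apply Real.one_le_exp
    have := Real.pi_pos
    have := τ.im_pos
    positivity
  by_cases hle : ‖U τ‖ ≤ 1
  · calc ‖U τ‖ ≤ 1 := hle
      _ ≤ (1 + |C|) * 1 := by have := abs_nonneg C; linarith
      _ ≤ (1 + |C|) * Real.exp (2 * Real.pi * m * τ.im) := by
          apply mul_le_mul_of_nonneg_left hexp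
          have := abs_nonneg C; linarith
  · have hgt : 1 ≤ ‖U τ‖ := (not_le.mp hle).le
    have h2 : ‖U τ‖ ≤ ‖U τ‖ ^ p := le_self_pow₀ hgt hp
    calc ‖U τ‖ ≤ ‖U τ‖ ^ p := h2
      _ ≤ C * Real.exp (2 * Real.pi * m * τ.im) := h1
      _ ≤ (1 + |C|) * Real.exp (2 * Real.pi * m * τ.im) := by
          apply mul_le_mul_of_nonneg_right _ (Real.exp_pos _).le
          have := le_abs_self C; linarith

/-- A holomorphic `Γ`-invariant function one of whose powers is good is good. -/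
theorem goodG_of_pow_goodG (hp : p ≠ 0) {W : ℍ → ℂ} (hW : MDifferentiable 𝓘(ℂ) 𝓘(ℂ) W)
    (hinv : ∀ γ ∈ Γ, ∀ τ : ℍ, W (γ • τ) = W τ) (hpow : GoodG Γ (fun τ => W τ ^ p)) :
    GoodG Γ W :=
  ⟨hW, hinv, fun g => expGrowth_of_pow_expGrowth hp (hpow.2.2 g)⟩

/-- **K3a**: a twisted function of a character trivial on `T` is meromorphic at `i∞` in `q`. -/
theorem isMerInf_of_isTwistedG (hp : p ≠ 0) (hT : ModularGroup.T ∈ Γ) {χ : Γ →* ℂˣ}
    (hχT : χ ⟨ModularGroup.T, hT⟩ = 1) {U : ℍ → ℂ} (hU : IsTwistedG Γ p χ U) :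
    IsMerInf 1 U := by
  refine ⟨hU.mdiff, ?_, ?_⟩
  · have := periodic_of_hasCharG hT hχT hU.hasChar
    simpa using this
  · obtain ⟨-, -, h3⟩ := hU.pow_good
    have h := h3 1
    simp only [one_smul] at h
    exact Fermat.Agent.S29.H882.isBounded_mul_qh_pow_of_expGrowth
      (expGrowth_of_pow_expGrowth hp h)

theorem IsTwistedG.fun_ne_zero {χ : Γ →* ℂˣ} {U : ℍ → ℂ} (hU : IsTwistedG Γ p χ U) : U ≠ 0 := by
  obtain ⟨τ, hτ⟩ := hU.ne_zero
  intro h0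
  exact hτ (by rw [h0]; rfl)

theorem IsTwistedG.pow_ne_zero {χ : Γ →* ℂˣ} {U : ℍ → ℂ} (hU : IsTwistedG Γ p χ U) :
    (fun τ => U τ ^ p) ≠ 0 := by
  obtain ⟨τ, hτ⟩ := hU.ne_zero
  intro h0
  exact _root_.pow_ne_zero p hτ (congrFun h0 τ)

/-- The `q`-expansion of the `p`-th power of a twisted function is nonzero. -/
theorem IsTwistedG.qexpFun_pow_ne_zero (hT : ModularGroup.T ∈ Γ) {χ : Γ →* ℂˣ} {U : ℍ → ℂ}
    (hU : IsTwistedG Γ p χ U) : qexpFun 1 (fun τ => U τ ^ p) ≠ 0 := by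
  intro h0
  exact hU.pow_ne_zero ((qexpFun_eq_zero_iff (isMerInf_of_goodG hT hU.pow_good)).mp h0)

/-- The character of a twisted function has exponent `p`. -/
theorem IsTwistedG.char_pow {χ : Γ →* ℂˣ} {U : ℍ → ℂ} (hU : IsTwistedG Γ p χ U) (γ : Γ) :
    χ γ ^ p = 1 := by
  obtain ⟨τ, hτ⟩ := hU.ne_zero
  have h1 := hU.pow_good.2.1 γ γ.2 τ
  simp only at h1
  rw [hU.hasChar γ τ, mul_pow] at h1
  have h2 : (((χ γ : ℂˣ) : ℂ) ^ p - 1) * U τ ^ p = 0 := by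
    rw [sub_mul, one_mul, h1, sub_self]
  rcases mul_eq_zero.mp h2 with h | h
  · apply Units.ext
    rw [Units.val_pow_eq_pow_val, Units.val_one]
    exact sub_eq_zero.mp h
  · exact absurd h (_root_.pow_ne_zero p hτ)

/-- Transport of the character along `U' * B = ζ * (U * A)` with `A`, `B` invariant. -/
theorem hasCharG_of_mul_eq {χ : Γ →* ℂˣ} {U U' A B : ℍ → ℂ} (ζ : ℂ)
    (hU' : MDifferentiable 𝓘(ℂ) 𝓘(ℂ) U') (hB : MDifferentiable 𝓘(ℂ) 𝓘(ℂ) B) (hB0 : B ≠ 0)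
    (hAinv : ∀ γ ∈ Γ, ∀ τ : ℍ, A (γ • τ) = A τ)
    (hBinv : ∀ γ ∈ Γ, ∀ τ : ℍ, B (γ • τ) = B τ)
    (hU : HasCharG Γ χ U) (h : ∀ τ, U' τ * B τ = ζ * (U τ * A τ)) : HasCharG Γ χ U' := by
  intro γ τ₀
  set c : ℂ := ((χ γ : ℂˣ) : ℂ) with hc
  set D : ℍ → ℂ := fun τ => U' ((γ : SL(2, ℤ)) • τ) - c * U' τ with hD
  have hDm : MDifferentiable 𝓘(ℂ) 𝓘(ℂ) D := by
    have h1 : MDifferentiable 𝓘(ℂ) 𝓘(ℂ) (fun τ : ℍ => U' ((γ : SL(2, ℤ)) • τ)) :=
      (precompSL (γ : SL(2, ℤ)) ⟨U', hU'⟩).2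
    have h2 : MDifferentiable 𝓘(ℂ) 𝓘(ℂ) (fun τ : ℍ => c * U' τ) :=
      (mdifferentiable_const (c := c)).mul hU'
    exact h1.sub h2
  have hDB : D * B = 0 := by
    funext τ
    simp only [Pi.mul_apply, Pi.zero_apply, hD]
    have e1 := h ((γ : SL(2, ℤ)) • τ)
    rw [hBinv _ γ.2 τ, hAinv _ γ.2 τ, hU γ τ] at e1
    have e2 := h τ
    calc (U' ((γ : SL(2, ℤ)) • τ) - c * U' τ) * B τ
        = U' ((γ : SL(2, ℤ)) • τ) * B τ - c * (U' τ * B τ) := by ring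
      _ = ζ * (c * U τ * A τ) - c * (ζ * (U τ * A τ)) := by rw [e1, e2]
      _ = 0 := by ring
  rcases mul_eq_zero_of_mdiff hDm hB hDB with h0 | h0
  · have := congrFun h0 τ₀
    simp only [hD, Pi.zero_apply] at this
    exact sub_eq_zero.mp this
  · exact absurd h0 hB0

/-- ROOT with divisibility read off from an identity `G * B ^ p = V ^ p`. -/
theorem exists_root_of_mul_pow_eq' (hp : p ≠ 0) {G B V : ℍ → ℂ}
    (hG : MDifferentiable 𝓘(ℂ) 𝓘(ℂ) G) (hB : MDifferentiable 𝓘(ℂ) 𝓘(ℂ) B)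
    (hV : MDifferentiable 𝓘(ℂ) 𝓘(ℂ) V) (hB0 : B ≠ 0) (hV0 : V ≠ 0)
    (h : ∀ τ, G τ * B τ ^ p = V τ ^ p) :
    ∃ U' : ℍ → ℂ, MDifferentiable 𝓘(ℂ) 𝓘(ℂ) U' ∧ ∀ τ : ℍ, U' τ ^ p = G τ := by
  refine Fermat.Agent.S29.H751.exists_pow_eq_UHP hG p hp fun τ => ?_
  have hfun : G * B ^ p = V ^ p := funext h
  have h1 : ordAt τ (G * B ^ p) = ordAt τ G + p • ordAt τ B := by
    rw [ordAt_mul hG (hB.pow p)]
    congr 1
    rw [ordAt_def, ordAt_def]
    have : (B ^ p) ∘ ofComplex = (B ∘ ofComplex) ^ p := rfl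
    rw [this, analyticOrderAt_pow (analyticAt_of_mdiff hB τ)]
  have h2 : ordAt τ (V ^ p) = p • ordAt τ V := by
    rw [ordAt_def, ordAt_def]
    have : (V ^ p) ∘ ofComplex = (V ∘ ofComplex) ^ p := rfl
    rw [this, analyticOrderAt_pow (analyticAt_of_mdiff hV τ)]
  rw [hfun, h2] at h1
  obtain ⟨b, hb⟩ := ENat.ne_top_iff_exists.mp (ordAt_ne_top hB hB0 τ)
  obtain ⟨v, hv⟩ := ENat.ne_top_iff_exists.mp (ordAt_ne_top hV hV0 τ)
  have hGne : ordAt τ G ≠ ⊤ := by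
    intro htop
    rw [htop, top_add, ← hv] at h1
    have h4 : ((p * v : ℕ) : ℕ∞) = ⊤ := by
      rw [← h1]; push_cast; simp [nsmul_eq_mul]
    exact ENat.natCast_ne_top _ h4
  obtain ⟨g, hg⟩ := ENat.ne_top_iff_exists.mp hGne
  rw [← hb, ← hv, ← hg] at h1
  have h3 : p * v = g + p * b := by
    have : ((p * v : ℕ) : ℕ∞) = ((g + p * b : ℕ) : ℕ∞) := by
      push_cast
      simpa [nsmul_eq_mul] using h1
    exact_mod_cast this
  refine ⟨v - b, ?_⟩
  rw [← ordAt_def, ← hg]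
  have hbv : b ≤ v := by
    by_contra hlt
    rw [not_le] at hlt
    have : p * v < p * b := Nat.mul_lt_mul_of_pos_left hlt (Nat.pos_of_ne_zero hp)
    omega
  have : g = p * (v - b) := by
    rw [Nat.mul_sub]
    omega
  rw [this]

end Basic

/-! ### The top assembly -/

/-- **PIECE K3, generic** (from MERO, GEN and FIN).  For a twisted function `U` of a character
`χ` trivial on `T` there are a twisted function `U'` of the same character and `u ∈ ℚ̄·F₀` such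
that `U' ^ p` realises `u`. -/
theorem exists_realised_isTwistedG (Γ : Subgroup SL(2, ℤ)) [Finite (SL(2, ℤ) ⧸ Γ)]
    (hT : ModularGroup.T ∈ Γ) (F₀ : IntermediateField ℚ (LaurentSeries ℚ)) (hj : jq ∈ F₀)
    {S : Set (LaurentSeries ℚ)} (hgen : GenData Γ F₀ S) (hmero : MeroG Γ F₀)
    (p : ℕ) [NeZero p] {χ : Γ →* ℂˣ} (hχT : χ ⟨ModularGroup.T, hT⟩ = 1) {U : ℍ → ℂ}
    (hU : IsTwistedG Γ p χ U) (hfin : FinG F₀ p U) :
    ∃ (U' : ℍ → ℂ) (u : laurentBaseChange Kbar F₀),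
      IsTwistedG Γ p χ U' ∧ RealisesG Γ F₀ u (fun τ => U' τ ^ p) := by
  classical
  letI : Algebra Kbar ℂ := iotaC.toAlgebra
  have hp : p ≠ 0 := NeZero.ne p
  -- `q`-expansions of `U` and `U ^ p`
  have hqU : HasQExp 1 U (qexpFun 1 U) :=
    HasQExp.of_isMerInf (isMerInf_of_isTwistedG hp hT hχT hU)
  have hqG : HasQExp 1 (fun τ => U τ ^ p) (qexpFun 1 U ^ p) := hqU.pow p
  have hfFC : qexpFun 1 (fun τ => U τ ^ p) ∈ laurentBaseChange ℂ F₀ := hmero _ hU.pow_good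
  have hUne : U ≠ 0 := hU.fun_ne_zero
  have hGne : (fun τ => U τ ^ p) ≠ 0 := hU.pow_ne_zero
  have hf0 : qexpFun 1 (fun τ => U τ ^ p) ≠ 0 := by
    rw [hqG.qexpFun_eq]
    exact fun h0 => hGne (hqG.eq_zero_iff.mp h0)
  -- descent
  obtain ⟨T, hTfin, horb⟩ := hfin
  obtain ⟨g, hgF, hg0, -, -, -, f', hf', hfg⟩ :=
    Fermat.Agent.S29.H152.desc_main (K := Kbar) (Ω := ℂ) F₀ jq hj order_jq_eq
      (Nat.card (SL(2, ℤ) ⧸ Γ)) hgen.degStatement
      p (Nat.pos_of_ne_zero hp) (qexpFun 1 (fun τ => U τ ^ p)) (qexpFun 1 U) hfFC hf0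
      hqG.qexpFun_eq.symm T hTfin horb
  -- clear the denominator of `f'` by a `p`-th power
  obtain ⟨r, hr, s, hs, hs0, hrs⟩ := exists_div_AKG Kbar hgen.le_adjoin hf'
  have hιinj : Function.Injective (coeffMap iotaC) := by
    intro x y hxy
    ext k
    have := congrArg (fun z : LaurentSeries ℂ => z.coeff k) hxy
    simp only [coeffMap_coeff] at this
    exact iotaC.injective this
  have hιs0 : coeffMap iotaC s ≠ 0 := fun h0 => hs0 (hιinj (by rw [h0, map_zero]))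
  set u₀ : LaurentSeries Kbar := r * s ^ (p - 1) with hu₀
  have hu₀AK : u₀ ∈ AKG Kbar S := mul_mem hr (pow_mem hs _)
  have hu₀F : u₀ ∈ laurentBaseChange Kbar F₀ := AKG_le_laurentBaseChange Kbar hgen.subset hu₀AK
  have hu₀eq : u₀ = f' * s ^ p := by
    rw [hu₀, hrs]
    have : s ^ p = s ^ (p - 1) * s := by
      rw [← pow_succ, Nat.sub_add_cancel (Nat.pos_of_ne_zero hp)]
    rw [this]
    field_simp
  -- `ι u₀ = f * φ ^ p` with `φ = g * ι s ∈ F_ℂ`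
  set φ : LaurentSeries ℂ := g * coeffMap iotaC s with hφ
  have hφF : φ ∈ laurentBaseChange ℂ F₀ :=
    mul_mem hgF (AKG_le_laurentBaseChange ℂ hgen.subset (coeffMap_mem_AKG iotaC hs))
  have hφ0 : φ ≠ 0 := mul_ne_zero hg0 hιs0
  have hιu : coeffMap iotaC u₀ = qexpFun 1 (fun τ => U τ ^ p) * φ ^ p := by
    rw [hu₀eq, map_mul, map_pow, hφ, mul_pow, ← mul_assoc, hfg]
    rfl
  -- the good function realising `u₀`
  obtain ⟨G', hG'good, hG'q⟩ := hgen.coeffMap_mem_goodQG iotaC hu₀AK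
  -- `φ = a / b`, quotient of `q`-expansions of good functions
  obtain ⟨a, ⟨A, hAgood, hAq⟩, b, ⟨B, hBgood, hBq⟩, hb0, hab⟩ := hgen.exists_div_goodQG hφF
  have ha0 : a ≠ 0 := by
    rintro rfl
    rw [zero_div] at hab
    exact hφ0 hab
  have hA0 : A ≠ 0 := fun h0 => ha0 (hAq.eq_zero_iff.mpr h0)
  have hB0 : B ≠ 0 := fun h0 => hb0 (hBq.eq_zero_iff.mpr h0)
  -- `G' * B ^ p = (U * A) ^ p`
  have hser : coeffMap iotaC u₀ * b ^ p = (qexpFun 1 U * a) ^ p := by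
    rw [hιu, hab, mul_pow, hqG.qexpFun_eq, mul_assoc, div_pow,
      div_mul_cancel₀ _ (_root_.pow_ne_zero p hb0)]
  have hfunc : G' * B ^ p = (U * A) ^ p :=
    HasQExp.eq_of_eq (hser ▸ hG'q.mul (hBq.pow p)) ((hqU.mul hAq).pow p)
  have hpt : ∀ τ, G' τ * B τ ^ p = (U * A) τ ^ p := fun τ => congrFun hfunc τ
  have hG'm : MDifferentiable 𝓘(ℂ) 𝓘(ℂ) G' := hG'good.1
  have hAm : MDifferentiable 𝓘(ℂ) 𝓘(ℂ) A := hAgood.1
  have hBm : MDifferentiable 𝓘(ℂ) 𝓘(ℂ) B := hBgood.1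
  have hUAm : MDifferentiable 𝓘(ℂ) 𝓘(ℂ) (U * A) := hU.mdiff.mul hAm
  have hUA0 : U * A ≠ 0 := by
    intro h0
    rcases mul_eq_zero_of_mdiff hU.mdiff hAm h0 with h1 | h1
    · exact hUne h1
    · exact hA0 h1
  -- the root
  obtain ⟨U', hU'm, hU'p⟩ := exists_root_of_mul_pow_eq' hp hG'm hBm hUAm hB0 hUA0 hpt
  -- `U' * B = ζ * (U * A)`
  obtain ⟨τ₀, hτ₀⟩ : ∃ τ₀, (U * A) τ₀ ≠ 0 := by
    by_contra hcon
    simp only [not_exists, not_not] at hcon
    exact hUA0 (funext hcon)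
  have hpow : ∀ τ, (U' τ * B τ) ^ p = (U * A) τ ^ p := fun τ => by
    rw [mul_pow, hU'p, hpt]
  set ζ : ℂ := U' τ₀ * B τ₀ / (U * A) τ₀ with hζ
  have hζp : ζ ^ p = 1 := by
    rw [hζ, div_pow, hpow, div_self (_root_.pow_ne_zero p hτ₀)]
  have hmul : (fun τ => U' τ * B τ) = fun τ => ζ * (U * A) τ := by
    refine Fermat.Agent.S29.H751.eq_of_pow_eq_UHP (hU'm.mul hBm)
      ((mdifferentiable_const (c := ζ)).mul hUAm) hp (fun τ => ?_) (τ₀ := τ₀) ?_ ?_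
    · rw [hpow, mul_pow, hζp, one_mul]
    · rw [hζ]
      field_simp
    · intro h0
      have h1 := hpow τ₀
      rw [h0, zero_pow hp] at h1
      exact _root_.pow_ne_zero p hτ₀ h1.symm
  have hchar : HasCharG Γ χ U' :=
    hasCharG_of_mul_eq ζ hU'm hBm hB0 hAgood.2.1 hBgood.2.1 hU.hasChar
      (fun τ => congrFun hmul τ)
  have hG'eq : (fun τ => U' τ ^ p) = G' := funext hU'p
  have hG'0 : G' ≠ 0 := by
    intro h0
    have := hpt τ₀
    rw [h0] at this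
    simp only [Pi.zero_apply, zero_mul] at this
    exact _root_.pow_ne_zero p hτ₀ this.symm
  refine ⟨U', ⟨u₀, hu₀F⟩, ⟨hU'm, ?_, hchar, ?_⟩, ?_, ?_⟩
  · by_contra hcon
    simp only [not_exists, not_not] at hcon
    apply hG'0
    funext τ
    rw [← hU'p, hcon, zero_pow hp]
    rfl
  · rw [hG'eq]; exact hG'good
  · rw [hG'eq]; exact hG'good
  · rw [hG'eq]; exact hG'q.qexpFun_eq

end Fermat.Agent.S48.H882
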